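import Fermat.Agent.S14.Defs

/-!
# S14 / Thaine, task TH-7 : API for `Fermat.Agent.S14.cls`

`cls I = ClassGroup.mk0 ⟨I, _⟩` for `I ≠ ⊥` (junk `1` at `⊥`).  All four lemmas are direct from
`map_mul ClassGroup.mk0`, `ClassGroup.mk0_eq_one_iff` (principal ideals), induction on `n` / on the finset.
-/

set_option autoImplicit false

namespace Fermat.Agent.S14.Thaine

open NumberField Ideal
open scoped nonZeroDivisors

theorem cls_eq_mk0 {F : Type*} [Field F] [NumberField F] {I : Ideal (𝓞 F)} (hI : I ≠ ⊥) :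
    cls I = ClassGroup.mk0 ⟨I, mem_nonZeroDivisors_iff_ne_zero.mpr hI⟩ := dif_pos hI

theorem cls_one' {F : Type*} [Field F] [NumberField F] : cls (1 : Ideal (𝓞 F)) = 1 := by
  have h1 : (1 : Ideal (𝓞 F)) ≠ ⊥ := one_ne_zero
  rw [cls_eq_mk0 h1]
  exact map_one ClassGroup.mk0

theorem cls_mul {F : Type*} [Field F] [NumberField F] {I J : Ideal (𝓞 F)} (hI : I ≠ ⊥)
    (hJ : J ≠ ⊥) : cls (I * J) = cls I * cls J := by
  have hIJ : I * J ≠ ⊥ := mul_ne_zero hI hJ
  rw [cls_eq_mk0 hI, cls_eq_mk0 hJ, cls_eq_mk0 hIJ, ← map_mul]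
  rfl

theorem cls_pow {F : Type*} [Field F] [NumberField F] {I : Ideal (𝓞 F)} (hI : I ≠ ⊥) (n : ℕ) :
    cls (I ^ n) = cls I ^ n := by
  induction n with
  | zero => rw [pow_zero, pow_zero, cls_one']
  | succ n ih => rw [pow_succ, pow_succ, cls_mul (pow_ne_zero n hI) hI, ih]

theorem cls_prod {F : Type*} [Field F] [NumberField F] {ι : Type*} (S : Finset ι)
    (f : ι → Ideal (𝓞 F)) (hf : ∀ i ∈ S, f i ≠ ⊥) : cls (∏ i ∈ S, f i) = ∏ i ∈ S, cls (f i) := by
  classical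
  induction S using Finset.induction_on with
  | empty => rw [Finset.prod_empty, Finset.prod_empty, cls_one']
  | insert a S ha ih =>
    have hS : ∀ i ∈ S, f i ≠ ⊥ := fun i hi => hf i (Finset.mem_insert_of_mem hi)
    have hprod : ∏ i ∈ S, f i ≠ ⊥ := Finset.prod_ne_zero_iff.mpr hS
    rw [Finset.prod_insert ha, Finset.prod_insert ha,
      cls_mul (hf a (Finset.mem_insert_self a S)) hprod, ih hS]

theorem cls_span_singleton {F : Type*} [Field F] [NumberField F] (x : 𝓞 F) :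
    cls (span {x}) = 1 := by
  by_cases hx : (span {x} : Ideal (𝓞 F)) = ⊥
  · exact dif_neg (not_not.mpr hx)
  · rw [cls_eq_mk0 hx, ClassGroup.mk0_eq_one_iff]
    exact ⟨⟨x, rfl⟩⟩

end Fermat.Agent.S14.Thaine
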