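import Fermat.Agent.S14.Defs

/-!
# S14 / Thaine, task TH-8 : pure computation modulo a maximal ideal

* `sum_expo_dvd`: cast to `ZMod p`: `∑_{a=1}^{p-1} a⁻² = ∑_{x : (ZMod p)ˣ} x⁻² = ∑_{x} x² = 0` because `2 < p - 1`
  (`FiniteField.sum_pow_lt_card_sub_one`, or `FiniteField.sum_pow_units`); `(expo p a : ZMod p) = (a⁻¹)^2` by `ZMod.natCast_zmod_val`;
  `(ZMod.natCast_eq_zero_iff _ _).mp`.
* `eta_congr`: `(1 - ζ) * cyc ζ a = 1 - ζ ^ a` (`mul_neg_geom_sum` / `geom_sum_mul`), hence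
  `(1 - ζ) ^ (∑ expo) * eta p ζ = ∏ (1 - ζ^a) ^ expo p a ≡ s ^ (∑ expo p a * R' a) mod 𝔩`.  Write `∑ expo = p * k`,
  `∑ expo * R' = p * m`.  In the field `R ⧸ 𝔩`, `1 - ζ ≠ 0`; take `x` a lift of `s^m * ((1-ζ)^k)⁻¹`
  (`Ideal.Quotient.mk_surjective`), and check `x ^ p = eta` in the quotient (`Ideal.Quotient.eq`).
-/

set_option autoImplicit false

namespace Fermat.Agent.S14.Thaine

open Ideal

variable {p : ℕ} [Fact p.Prime]

/-- Summing over `ZMod p` is summing over `range p`. -/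
theorem sum_zmod_eq_sum_range {M : Type*} [AddCommMonoid M] (f : ZMod p → M) :
    ∑ x : ZMod p, f x = ∑ a ∈ Finset.range p, f (a : ZMod p) := by
  refine Finset.sum_nbij' (fun x => x.val) (fun a => (a : ZMod p)) ?_ ?_ ?_ ?_ ?_
  · intro x _
    exact Finset.mem_range.mpr (ZMod.val_lt x)
  · intro a _
    exact Finset.mem_univ _
  · intro x _
    exact ZMod.natCast_zmod_val x
  · intro a ha
    exact ZMod.val_cast_of_lt (Finset.mem_range.mp ha)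
  · intro x _
    rw [ZMod.natCast_zmod_val]

theorem sum_expo_dvd (hp5 : 5 ≤ p) : p ∣ ∑ a ∈ Finset.Ico 1 p, expo p a := by
  rw [← ZMod.natCast_eq_zero_iff]
  push_cast
  have h1 : ∀ a : ℕ, ((expo p a : ℕ) : ZMod p) = ((a : ZMod p)⁻¹) ^ 2 := by
    intro a
    unfold expo
    exact ZMod.natCast_zmod_val _
  simp only [h1]
  have h2 : ∑ a ∈ Finset.range p, (((a : ℕ) : ZMod p)⁻¹) ^ 2
      = ∑ a ∈ Finset.Ico 1 p, (((a : ℕ) : ZMod p)⁻¹) ^ 2 := by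
    rw [Finset.range_eq_Ico, Finset.sum_eq_sum_Ico_succ_bot (by omega : 0 < p)]
    simp
  rw [← h2, ← sum_zmod_eq_sum_range (fun x : ZMod p => (x⁻¹) ^ 2)]
  have h3 : ∑ x : ZMod p, (x⁻¹) ^ 2 = ∑ x : ZMod p, x ^ 2 := by
    refine Finset.sum_nbij' (fun x => x⁻¹) (fun x => x⁻¹) ?_ ?_ ?_ ?_ ?_
    · intro x _; exact Finset.mem_univ _
    · intro x _; exact Finset.mem_univ _
    · intro x _; exact inv_inv x
    · intro x _; exact inv_inv x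
    · intro x _; rfl
  rw [h3]
  apply FiniteField.sum_pow_lt_card_sub_one
  rw [ZMod.card]
  omega

theorem one_sub_mul_cyc {R : Type*} [CommRing R] (ζ : R) (a : ℕ) :
    (1 - ζ) * cyc ζ a = 1 - ζ ^ a := by
  unfold cyc
  rw [mul_comm]
  exact geom_sum_mul_neg ζ a

theorem eta_congr {R : Type*} [CommRing R] (hp5 : 5 ≤ p) (ζ : R) (𝔩 : Ideal R) [𝔩.IsMaximal]
    (h1 : 1 - ζ ∉ 𝔩) (s : ℕ) (R' : ℕ → ℕ)
    (hR : ∀ a ∈ Finset.Ico 1 p, (1 - ζ ^ a) - (s : R) ^ R' a ∈ 𝔩)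
    (hsum : p ∣ ∑ a ∈ Finset.Ico 1 p, expo p a * R' a) :
    ∃ x : R, x ^ p - eta p ζ ∈ 𝔩 := by
  classical
  let _ : Field (R ⧸ 𝔩) := Ideal.Quotient.field 𝔩
  obtain ⟨k, hk⟩ := sum_expo_dvd (p := p) hp5
  obtain ⟨m, hm⟩ := hsum
  set π : R →+* R ⧸ 𝔩 := Ideal.Quotient.mk 𝔩 with hπ
  have hne : π (1 - ζ) ≠ 0 := by
    intro h
    exact h1 (Ideal.Quotient.eq_zero_iff_mem.mp h)
  -- the key identity in `R`
  have key : (1 - ζ) ^ (∑ a ∈ Finset.Ico 1 p, expo p a) * eta p ζ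
      = ∏ a ∈ Finset.Ico 1 p, (1 - ζ ^ a) ^ expo p a := by
    unfold eta
    rw [← Finset.prod_pow_eq_pow_sum, ← Finset.prod_mul_distrib]
    refine Finset.prod_congr rfl ?_
    intro a _
    rw [← mul_pow, one_sub_mul_cyc]
  have hprod : π (∏ a ∈ Finset.Ico 1 p, (1 - ζ ^ a) ^ expo p a)
      = (π (s : R)) ^ (∑ a ∈ Finset.Ico 1 p, expo p a * R' a) := by
    rw [map_prod, ← Finset.prod_pow_eq_pow_sum]
    refine Finset.prod_congr rfl ?_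
    intro a ha
    have h := hR a ha
    have h' : π (1 - ζ ^ a) = π ((s : R) ^ R' a) := (Ideal.Quotient.eq).mpr h
    rw [map_pow, h', map_pow, ← pow_mul, mul_comm]
  obtain ⟨x, hx⟩ := Ideal.Quotient.mk_surjective (I := 𝔩)
    ((π (s : R)) ^ m * ((π (1 - ζ)) ^ k)⁻¹)
  refine ⟨x, ?_⟩
  rw [← Ideal.Quotient.eq]
  change π (x ^ p) = π (eta p ζ)
  have hx' : π x = (π (s : R)) ^ m * ((π (1 - ζ)) ^ k)⁻¹ := hx
  have key' := congrArg π key
  rw [hprod, map_mul, map_pow, hk, hm] at key'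
  have hne' : (π (1 - ζ)) ^ k ≠ 0 := pow_ne_zero _ hne
  rw [map_pow, hx', mul_pow, inv_pow, ← pow_mul, ← pow_mul, mul_comm m p, mul_comm k p, ← key']
  have hne'' : (π (1 - ζ)) ^ (p * k) ≠ 0 := pow_ne_zero _ hne
  field_simp

end Fermat.Agent.S14.Thaine
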