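import Mathlib

/-!
# S14 / Thaine, task TH-6 : primes of degree one of `K = ℚ(ζ_p)`

Sketch.
* `mod_eq_one_of_absNorm`: `𝔩.LiesOver (span {(ℓ:ℤ)})` (as `absNorm 𝔩 = ℓ ∈ 𝔩`: `Ideal.absNorm_mem`);
  `absNorm 𝔩 = ℓ ^ inertiaDeg` (`Ideal.absNorm_eq_pow_inertiaDeg`) so `inertiaDeg 𝔩 ℤ = 1`;
  `IsCyclotomicExtension.Rat.inertiaDeg_eq_of_not_dvd` gives `orderOf (ℓ : ZMod p) = 1`, so `(ℓ : ZMod p) = 1`.
  (Elementary alternative: the image of `ζ` in `(𝓞 K ⧸ 𝔩)ˣ`, a group of order `ℓ - 1`, has order `p`.)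
* `bijOn_smul_primesOver`: maps-to: `σ • 𝔩` is prime and lies over `ℓ`
  (`IsDedekindDomain.mem_primesOverFinset_iff` / `coe_primesOverFinset`).  Surjective: transitivity of the Galois action
  (`Ideal.exists_smul_eq_of_isGaloisGroup` or `Algebra.IsInvariant.exists_smul_of_under_eq`; `IsGaloisGroup Gal(K/ℚ) ℤ (𝓞 K)` is an
  instance).  Injective: count.  `Ideal.ncard_primesOver_mul_ramificationIdxIn_mul_inertiaDegIn` with `e = 1`
  (`IsCyclotomicExtension.Rat.ramificationIdxIn_eq_of_not_dvd`), `f = 1` gives `ncard (primesOver) = card Gal(K/ℚ)`, and a surjection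
  between finite sets of the same cardinality is injective (`Finite.injective_iff_surjective_of_equiv`, `Set.…ncard`).
* `exists_gal_family`: `IsCyclotomicExtension.autEquivPow K (Polynomial.cyclotomic.irreducible_rat ..) : Gal(K/ℚ) ≃* (ZMod p)ˣ`
  (or `IsCyclotomicExtension.Rat.galEquivZMod`), `τ a = (equiv).symm (ZMod.unitOfCoprime a ..)` for `a ∈ Ico 1 p` (junk `1` otherwise).
-/

set_option autoImplicit false

namespace Fermat.Agent.S14.Thaine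

open NumberField Ideal
open scoped Pointwise

variable {p : ℕ} [Fact p.Prime] {K : Type*} [Field K] [NumberField K]
  [IsCyclotomicExtension {p} ℚ K]

omit [Fact p.Prime] [IsCyclotomicExtension {p} ℚ K] in
theorem liesOver_of_absNorm (𝔩 : Ideal (𝓞 K)) [𝔩.IsPrime] (ℓ : ℕ) (hℓ : ℓ.Prime)
    (hN : absNorm 𝔩 = ℓ) : 𝔩.LiesOver (span {(ℓ : ℤ)}) := by
  constructor
  have hmem : ((ℓ : ℤ) : 𝓞 K) ∈ 𝔩 := by
    have := Ideal.absNorm_mem 𝔩
    rw [hN] at this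
    exact_mod_cast this
  have : Fact ℓ.Prime := ⟨hℓ⟩
  have hmax : (span {(ℓ : ℤ)}).IsMaximal := Int.ideal_span_isMaximal_of_prime ℓ
  have hle : span {(ℓ : ℤ)} ≤ 𝔩.under ℤ := by
    rw [Ideal.span_singleton_le_iff_mem, Ideal.mem_comap]
    simpa using hmem
  have hne : 𝔩.under ℤ ≠ ⊤ := (Ideal.IsPrime.under ℤ 𝔩).ne_top
  exact hmax.eq_of_le hne hle

theorem mod_eq_one_of_absNorm (𝔩 : Ideal (𝓞 K)) [𝔩.IsPrime] (ℓ : ℕ) (hℓ : ℓ.Prime) (hℓp : ℓ ≠ p)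
    (hN : absNorm 𝔩 = ℓ) : ℓ % p = 1 := by
  have : Fact ℓ.Prime := ⟨hℓ⟩
  have := liesOver_of_absNorm 𝔩 ℓ hℓ hN
  have hp : p.Prime := Fact.out
  have hnd : ¬ ℓ ∣ p := fun h => hℓp ((Nat.prime_dvd_prime_iff_eq hℓ hp).1 h)
  have h1 : ℓ ^ 𝔩.inertiaDeg ℤ = ℓ := by rw [Ideal.pow_inertiaDeg ℓ 𝔩, hN]
  have h2 : 𝔩.inertiaDeg ℤ = 1 := by
    have : ℓ ^ 𝔩.inertiaDeg ℤ = ℓ ^ 1 := by rw [h1, pow_one]
    exact Nat.pow_right_injective hℓ.two_le this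
  have h3 := IsCyclotomicExtension.Rat.inertiaDeg_eq_of_not_dvd ℓ K 𝔩 (m := p) hnd
  rw [h2] at h3
  have h4 : (ℓ : ZMod p) = 1 := orderOf_eq_one_iff.1 h3.symm
  have h5 : (ℓ : ZMod p) = ((1 : ℕ) : ZMod p) := by rw [h4, Nat.cast_one]
  rw [ZMod.natCast_eq_natCast_iff'] at h5
  rw [h5, Nat.mod_eq_of_lt hp.one_lt]

theorem bijOn_smul_primesOver (𝔩 : Ideal (𝓞 K)) [𝔩.IsPrime] (ℓ : ℕ) (hℓ : ℓ.Prime) (hℓp : ℓ ≠ p)
    (hN : absNorm 𝔩 = ℓ) :
    Set.BijOn (fun σ : K ≃ₐ[ℚ] K => σ • 𝔩) Set.univ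
      (IsDedekindDomain.primesOverFinset (span {(ℓ : ℤ)}) (𝓞 K) : Set (Ideal (𝓞 K))) := by
  have : Fact ℓ.Prime := ⟨hℓ⟩
  have hlo := liesOver_of_absNorm 𝔩 ℓ hℓ hN
  have : IsGalois ℚ K := IsCyclotomicExtension.isGalois {p} ℚ K
  have hp : p.Prime := Fact.out
  have hnd : ¬ ℓ ∣ p := fun h => hℓp ((Nat.prime_dvd_prime_iff_eq hℓ hp).1 h)
  have hcop : ℓ.Coprime p := (Nat.Prime.coprime_iff_not_dvd hℓ).2 hnd
  have hbot : span {(ℓ : ℤ)} ≠ ⊥ := by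
    rw [Ne, Ideal.span_singleton_eq_bot]
    exact_mod_cast hℓ.ne_zero
  have hmaxZ : (span {(ℓ : ℤ)}).IsMaximal := Int.ideal_span_isMaximal_of_prime ℓ
  have hmax : 𝔩.IsMaximal := Ideal.IsMaximal.of_liesOver_isMaximal 𝔩 (span {(ℓ : ℤ)})
  rw [IsDedekindDomain.coe_primesOverFinset hbot]
  refine ⟨?_, ?_, ?_⟩
  · intro σ _
    exact ⟨inferInstance, inferInstance⟩
  · intro σ _ τ _ h
    simp only at h
    have hst : τ⁻¹ * σ ∈ MulAction.stabilizer (K ≃ₐ[ℚ] K) 𝔩 := by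
      rw [MulAction.mem_stabilizer_iff, mul_smul, h, inv_smul_smul]
    have h1 := IsCyclotomicExtension.Rat.mem_zpowers_galEquivZMod_of_mem_stabilizer p K ℓ 𝔩 hcop hst
    have hone : ZMod.unitOfCoprime ℓ hcop = 1 := by
      ext
      rw [ZMod.coe_unitOfCoprime, Units.val_one]
      have hm := mod_eq_one_of_absNorm (p := p) 𝔩 ℓ hℓ hℓp hN
      have : (ℓ : ZMod p) = ((1 : ℕ) : ZMod p) := by
        rw [ZMod.natCast_eq_natCast_iff', hm, Nat.mod_eq_of_lt hp.one_lt]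
      rw [this, Nat.cast_one]
    rw [hone, Subgroup.zpowers_one_eq_bot, Subgroup.mem_bot] at h1
    have h2 : τ⁻¹ * σ = 1 := by
      have := (IsCyclotomicExtension.Rat.galEquivZMod p K).injective
        (h1.trans (map_one _).symm)
      exact this
    exact (inv_mul_eq_one.1 h2).symm
  · intro Q hQ
    obtain ⟨hQ1, hQ2⟩ := hQ
    obtain ⟨σ, hσ⟩ := Ideal.exists_smul_eq_of_isGaloisGroup (span {(ℓ : ℤ)}) 𝔩 Q (K ≃ₐ[ℚ] K)
    exact ⟨σ, Set.mem_univ _, hσ⟩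

theorem exists_gal_family {ζ : K} (hζ : IsPrimitiveRoot ζ p) :
    ∃ τ : ℕ → (K ≃ₐ[ℚ] K), (∀ a ∈ Finset.Ico 1 p, τ a ζ = ζ ^ a) ∧
      Set.BijOn τ (Finset.Ico 1 p : Set ℕ) Set.univ := by
  classical
  have hp : p.Prime := Fact.out
  let e := IsCyclotomicExtension.Rat.galEquivZMod p K
  have hcop : ∀ a ∈ Finset.Ico 1 p, a.Coprime p := by
    intro a ha
    rw [Finset.mem_Ico] at ha
    exact (Nat.coprime_of_lt_prime (by omega) ha.2 hp).symm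
  let τ : ℕ → (K ≃ₐ[ℚ] K) := fun a =>
    if h : a ∈ Finset.Ico 1 p then e.symm (ZMod.unitOfCoprime a (hcop a h)) else 1
  have hτ : ∀ a (h : a ∈ Finset.Ico 1 p), e (τ a) = ZMod.unitOfCoprime a (hcop a h) := by
    intro a h
    simp only [τ, dif_pos h, MulEquiv.apply_symm_apply]
  refine ⟨τ, ?_, ?_, ?_, ?_⟩
  · intro a ha
    rw [IsCyclotomicExtension.Rat.galEquivZMod_apply_of_pow_eq p K (τ a) hζ.pow_eq_one]
    have := hτ a ha
    change (IsCyclotomicExtension.Rat.galEquivZMod p K) (τ a) = _ at this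
    rw [this, ZMod.coe_unitOfCoprime, ZMod.val_natCast, Nat.mod_eq_of_lt (Finset.mem_Ico.1 ha).2]
  · intro a _
    exact Set.mem_univ _
  · intro a ha b hb hab
    have ha' : a ∈ Finset.Ico 1 p := ha
    have hb' : b ∈ Finset.Ico 1 p := hb
    have h1 : ZMod.unitOfCoprime a (hcop a ha') = ZMod.unitOfCoprime b (hcop b hb') := by
      rw [← hτ a ha', ← hτ b hb', hab]
    have h2 : (a : ZMod p) = (b : ZMod p) := by
      have := congrArg Units.val h1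
      simpa [ZMod.coe_unitOfCoprime] using this
    rw [ZMod.natCast_eq_natCast_iff', Nat.mod_eq_of_lt (Finset.mem_Ico.1 ha').2,
      Nat.mod_eq_of_lt (Finset.mem_Ico.1 hb').2] at h2
    exact h2
  · intro σ _
    have hu : ((e σ : (ZMod p)ˣ) : ZMod p) ≠ 0 := (e σ).ne_zero
    have hval : ((e σ : (ZMod p)ˣ) : ZMod p).val ∈ Finset.Ico 1 p := by
      rw [Finset.mem_Ico]
      refine ⟨?_, ZMod.val_lt _⟩
      rw [Nat.one_le_iff_ne_zero, Ne, ZMod.val_eq_zero]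
      exact hu
    refine ⟨((e σ : (ZMod p)ˣ) : ZMod p).val, hval, ?_⟩
    apply e.injective
    rw [hτ _ hval]
    ext
    rw [ZMod.coe_unitOfCoprime, ZMod.natCast_zmod_val]

end Fermat.Agent.S14.Thaine
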