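import Fermat.Agent.S14.Thaine.Relation
import Fermat.Agent.S14.Thaine.PrimesOver
import Fermat.Agent.S14.Thaine.Cls
import Fermat.Agent.S14.Thaine.EtaCongr

/-!
# S14 / Thaine, task TH-9 : `thaine_char` (= `thaine_char` of `S14/Blueprint.lean`)

Sketch.  `ℓ % p = 1` (TH-6).  Take `β s R 𝔠` from `thaine_relation`.  Apply `χ ∘ cls` to the ideal identity (TH-7;
`𝔠 ≠ ⊥` and all primes `≠ ⊥` since `β ≠ 0`; `y ^ p = 1` for `y : Multiplicative (ZMod p)`):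
`1 = ∏_{𝔩' ∣ ℓ} χ(cls 𝔩') ^ R 𝔩'`.  Reindex by `σ ↦ σ • 𝔩` (TH-6 `bijOn_smul_primesOver`), then by `a ↦ (τ a)⁻¹`
(TH-6 `exists_gal_family`).  If `(τ a)⁻¹ ζ = ζ ^ b` then `a * b ≡ 1 mod p`, so `b ^ 2 ≡ expo p a mod p` and
`χ (cls ((τ a)⁻¹ • 𝔩)) = χ (cls 𝔩) ^ (b^2) = χ (cls 𝔩) ^ expo p a`.  With `R' a = R ((τ a)⁻¹ • 𝔩)`:
`χ (cls 𝔩) ^ (∑ expo p a * R' a) = 1` and `χ (cls 𝔩) ≠ 1` in a group of prime order `p`, so `p ∣ ∑ expo p a * R' a`.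
Applying `τ a` to `(1 - ζ) - s ^ R' a ∈ (τ a)⁻¹ • 𝔩` gives `(1 - ζ^a) - s ^ R' a ∈ 𝔩`.  `1 - ζ ∉ 𝔩` because
`(1-ζ) ∣ p` and `p ∉ 𝔩` (`ℓ ≠ p`, both in `𝔩` would give `1 ∈ 𝔩`).  Conclude with `eta_congr` (TH-8).
-/

set_option autoImplicit false

namespace Fermat.Agent.S14.Thaine

open NumberField Ideal
open scoped Pointwise

/-- powers in `Multiplicative (ZMod p)` only depend on the exponent mod `p` -/
theorem mulZMod_pow_congr {p : ℕ} (y : Multiplicative (ZMod p)) {n m : ℕ}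
    (h : (n : ZMod p) = (m : ZMod p)) : y ^ n = y ^ m := by
  apply Multiplicative.toAdd.injective
  simp [toAdd_pow, nsmul_eq_mul, h]

theorem mulZMod_pow_self {p : ℕ} (y : Multiplicative (ZMod p)) : y ^ p = 1 := by
  have := mulZMod_pow_congr y (n := p) (m := 0) (by simp)
  simpa using this

theorem mulZMod_dvd_of_pow_eq_one {p : ℕ} [Fact p.Prime] (y : Multiplicative (ZMod p))
    (hy : y ≠ 1) {n : ℕ} (h : y ^ n = 1) : p ∣ n := by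
  have h1 : (n : ZMod p) * Multiplicative.toAdd y = 0 := by
    have := congrArg Multiplicative.toAdd h
    simpa [toAdd_pow, nsmul_eq_mul] using this
  have h2 : Multiplicative.toAdd y ≠ 0 := by
    intro h0
    apply hy
    apply Multiplicative.toAdd.injective
    simpa using h0
  rcases mul_eq_zero.mp h1 with h3 | h3
  · exact (ZMod.natCast_eq_zero_iff _ _).mp h3
  · exact absurd h3 h2

variable {p : ℕ} [Fact p.Prime] {K : Type*} [Field K] [NumberField K]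
  [IsCyclotomicExtension {p} ℚ K]

omit [Fact p.Prime] [IsCyclotomicExtension {p} ℚ K] in
theorem smul_ne_bot_of_ne_bot (σ : K ≃ₐ[ℚ] K) {I : Ideal (𝓞 K)} (hI : I ≠ ⊥) : σ • I ≠ ⊥ := by
  intro h
  apply hI
  have : σ⁻¹ • (σ • I) = σ⁻¹ • (⊥ : Ideal (𝓞 K)) := by rw [h]
  rwa [inv_smul_smul, Ideal.smul_bot] at this

omit [IsCyclotomicExtension {p} ℚ K] in
/-- the exponent of the inverse automorphism -/
theorem exists_inv_exponent {ζ : K} (hζ : IsPrimitiveRoot ζ p) (σ : K ≃ₐ[ℚ] K) {a : ℕ}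
    (ha : σ ζ = ζ ^ a) : ∃ b : ℕ, σ⁻¹ ζ = ζ ^ b ∧ ((b ^ 2 : ℕ) : ZMod p) = (expo p a : ZMod p) := by
  have hp : p.Prime := Fact.out
  have h1 : (σ⁻¹ ζ) ^ p = 1 := by
    rw [← map_pow, hζ.pow_eq_one, map_one]
  obtain ⟨b, -, hb⟩ := hζ.eq_pow_of_pow_eq_one h1
  refine ⟨b, hb.symm, ?_⟩
  have h2 : ζ ^ (a * b) = ζ ^ 1 := by
    have : σ (σ⁻¹ ζ) = ζ := by
      change (σ * σ⁻¹) ζ = ζ
      simp
    rw [← hb, map_pow, ha, ← pow_mul] at this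
    simpa using this
  have hζ0 : ζ ≠ 0 := hζ.ne_zero hp.ne_zero
  have h3 : (p : ℤ) ∣ ((a * b : ℕ) : ℤ) - 1 := by
    rw [← hζ.zpow_eq_one_iff_dvd, zpow_sub₀ hζ0, zpow_natCast, zpow_one, h2, pow_one,
      div_self hζ0]
  have h4 : (a : ZMod p) * (b : ZMod p) = 1 := by
    have := (ZMod.intCast_zmod_eq_zero_iff_dvd _ p).mpr h3
    push_cast at this
    linear_combination this
  have h5 : (b : ZMod p) = (a : ZMod p)⁻¹ := by
    exact eq_inv_of_mul_eq_one_right h4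
  unfold expo
  rw [ZMod.natCast_zmod_val, Nat.cast_pow, h5]

theorem thaine_char (hp5 : 5 ≤ p) {ζ : K} (hζ : IsPrimitiveRoot ζ p)
    (χ : ClassGroup (𝓞 K) →* Multiplicative (ZMod p)) (hχ : IsEigenChar p ζ χ)
    (𝔩 : Ideal (𝓞 K)) [𝔩.IsPrime] (ℓ : ℕ) (hℓ : ℓ.Prime) (hℓp : ℓ ≠ p) (hN : absNorm 𝔩 = ℓ)
    (hne : χ (cls 𝔩) ≠ 1) :
    ∃ x : 𝓞 K, x ^ p - eta p hζ.toInteger ∈ 𝔩 := by
  classical
  have hp : p.Prime := Fact.out
  have hmod : ℓ % p = 1 := mod_eq_one_of_absNorm 𝔩 ℓ hℓ hℓp hN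
  obtain ⟨β, s, R, 𝔠, hβ, hcong, hid⟩ := thaine_relation hζ ℓ hℓ hmod
  obtain ⟨τ, hτ, hτbij⟩ := exists_gal_family (K := K) hζ
  have hbij := bijOn_smul_primesOver 𝔩 ℓ hℓ hℓp hN
  have h𝔩0 : 𝔩 ≠ ⊥ := by
    intro h
    rw [h, Ideal.absNorm_bot] at hN
    exact hℓ.ne_zero hN.symm
  have : 𝔩.IsMaximal := Ideal.IsPrime.isMaximal inferInstance h𝔩0
  set P := IsDedekindDomain.primesOverFinset (span {(ℓ : ℤ)}) (𝓞 K) with hP
  -- the reindexing map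
  set i : ℕ → Ideal (𝓞 K) := fun a => (τ a)⁻¹ • 𝔩 with hi
  have hibij : Set.BijOn i (Finset.Ico 1 p : Set ℕ) (P : Set (Ideal (𝓞 K))) := by
    have hinv : Set.BijOn (fun σ : K ≃ₐ[ℚ] K => σ⁻¹) Set.univ Set.univ :=
      (Equiv.inv (K ≃ₐ[ℚ] K)).bijective.bijOn_univ
    exact (hbij.comp hinv).comp hτbij
  have hP0 : ∀ 𝔮 ∈ P, 𝔮 ≠ ⊥ := by
    intro 𝔮 h𝔮
    obtain ⟨σ, -, rfl⟩ := hbij.surjOn (Finset.mem_coe.mpr h𝔮)
    exact smul_ne_bot_of_ne_bot σ h𝔩0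
  have h𝔠0 : 𝔠 ≠ ⊥ := by
    intro h
    apply hβ
    rw [h, bot_pow hp.ne_zero, mul_bot, Ideal.span_singleton_eq_bot] at hid
    exact hid
  set R' : ℕ → ℕ := fun a => R (i a) with hR'
  set y := χ (cls 𝔩) with hy
  -- apply the character
  have hprod : (1 : Multiplicative (ZMod p)) = ∏ 𝔮 ∈ P, χ (cls 𝔮) ^ R 𝔮 := by
    have h1 : χ (cls (span {β})) = 1 := by rw [cls_span_singleton, map_one]
    have hprod0 : (∏ 𝔮 ∈ P, 𝔮 ^ R 𝔮) ≠ ⊥ := by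
      rw [← Ideal.zero_eq_bot, Finset.prod_ne_zero_iff]
      intro 𝔮 h𝔮
      exact pow_ne_zero _ (hP0 𝔮 h𝔮)
    rw [hid, cls_mul hprod0 (pow_ne_zero _ h𝔠0), cls_pow h𝔠0, map_mul, map_pow, mulZMod_pow_self,
      mul_one, cls_prod P _ (fun 𝔮 h𝔮 => pow_ne_zero _ (hP0 𝔮 h𝔮)), map_prod] at h1
    rw [← h1]
    refine Finset.prod_congr rfl (fun 𝔮 h𝔮 => ?_)
    rw [cls_pow (hP0 𝔮 h𝔮), map_pow]
  have hre : ∏ 𝔮 ∈ P, χ (cls 𝔮) ^ R 𝔮 = ∏ a ∈ Finset.Ico 1 p, χ (cls (i a)) ^ R' a := by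
    symm
    exact Finset.prod_nbij i (fun a ha => Finset.mem_coe.mp (hibij.mapsTo (Finset.mem_coe.mpr ha)))
      hibij.injOn hibij.surjOn (fun a _ => rfl)
  have hterm : ∀ a ∈ Finset.Ico 1 p, χ (cls (i a)) ^ R' a = y ^ (expo p a * R' a) := by
    intro a ha
    obtain ⟨b, hb, hb2⟩ := exists_inv_exponent hζ (τ a) (hτ a ha)
    rw [hi]
    simp only
    rw [hχ (τ a)⁻¹ b hb 𝔩 h𝔩0, mulZMod_pow_congr _ hb2, ← pow_mul]
  have hsum : p ∣ ∑ a ∈ Finset.Ico 1 p, expo p a * R' a := by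
    apply mulZMod_dvd_of_pow_eq_one y hne
    rw [← Finset.prod_pow_eq_pow_sum, ← Finset.prod_congr rfl hterm, ← hre, ← hprod]
  have hR : ∀ a ∈ Finset.Ico 1 p,
      (1 - hζ.toInteger ^ a) - (s : 𝓞 K) ^ R' a ∈ 𝔩 := by
    intro a ha
    have h1 := hcong (i a) (Finset.mem_coe.mp (hibij.mapsTo (Finset.mem_coe.mpr ha)))
    rw [hi] at h1
    simp only at h1
    rw [Ideal.mem_inv_pointwise_smul_iff] at h1
    have h2 : τ a • ((1 - hζ.toInteger) - (s : 𝓞 K) ^ R ((τ a)⁻¹ • 𝔩))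
        = (1 - hζ.toInteger ^ a) - (s : 𝓞 K) ^ R' a := by
      apply RingOfIntegers.ext
      rw [RingOfIntegers.coe_eq_algebraMap, algebraMap.smul']
      simp only [map_sub, map_one, map_pow, map_natCast, AlgEquiv.smul_def]
      have : algebraMap (𝓞 K) K hζ.toInteger = ζ := rfl
      rw [this, hτ a ha]
    rw [h2] at h1
    exact h1
  have h1 : 1 - hζ.toInteger ∉ 𝔩 := by
    intro hmem
    have hpmem : (p : 𝓞 K) ∈ 𝔩 := by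
      have hd : hζ.toInteger - 1 ∣ (p : 𝓞 K) := hζ.toInteger_sub_one_dvd_prime'
      have hm : hζ.toInteger - 1 ∈ 𝔩 := by
        have := 𝔩.neg_mem hmem
        simpa using this
      exact Ideal.mem_of_dvd 𝔩 hd hm
    have hℓmem : (ℓ : 𝓞 K) ∈ 𝔩 := by
      rw [← hN]; exact Ideal.absNorm_mem 𝔩
    have hcop : Nat.Coprime ℓ p := (Nat.coprime_primes hℓ hp).mpr hℓp
    obtain ⟨u, v, huv⟩ := Nat.isCoprime_iff_coprime.mpr hcop
    have h1mem : (1 : 𝓞 K) ∈ 𝔩 := by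
      have : ((u * (ℓ : ℤ) + v * (p : ℤ) : ℤ) : 𝓞 K) = 1 := by rw [huv]; simp
      rw [← this]
      push_cast
      exact 𝔩.add_mem (𝔩.mul_mem_left _ hℓmem) (𝔩.mul_mem_left _ hpmem)
    exact (inferInstance : 𝔩.IsPrime).ne_top ((Ideal.eq_top_iff_one 𝔩).mpr h1mem)
  exact eta_congr hp5 hζ.toInteger 𝔩 h1 s R' hR hsum

end Fermat.Agent.S14.Thaine
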