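import Mathlib

/-!
# S14 / Thaine, task TH-3

`e(𝔓|𝔯) * v_𝔯(β) = n * v_𝔓(γ)` when `β ~ γ ^ n` in `B`.

Sketch: `Ideal.IsDedekindDomain.emultiplicity_map_eq_ramificationIdx'_mul` (file
`Mathlib/NumberTheory/RamificationInertia/Ramification.lean`) gives
`emultiplicity 𝔓 (map (span {β})) = ramificationIdx' 𝔯 𝔓 * emultiplicity 𝔯 (span {β})`;
`Ideal.ramificationIdx'_eq_ramificationIdx` (file `Mathlib/RingTheory/RamificationInertia/Ramification.lean`)
converts to the new `𝔓.ramificationIdx A`; `emultiplicity_eq_count_normalizedFactors` converts to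
counts; `map (span {β}) = span {algebraMap β} = span {γ ^ n} = span {γ} ^ n`
(`Ideal.map_span`, `Ideal.span_singleton_eq_span_singleton`, `Ideal.span_singleton_pow`),
`normalizedFactors_pow`, `Multiset.count_nsmul`.
-/

set_option autoImplicit false

namespace Fermat.Agent.S14.Thaine

open Ideal UniqueFactorizationMonoid

open Classical in
theorem ramificationIdx_mul_count {A B : Type*} [CommRing A] [IsDedekindDomain A] [CommRing B]
    [IsDedekindDomain B] [Algebra A B] [Module.IsTorsionFree A B] (β : A) (hβ : β ≠ 0) (γ : B)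
    (hγ : γ ≠ 0) (n : ℕ) (h : Associated (algebraMap A B β) (γ ^ n))
    (𝔯 : Ideal A) [𝔯.IsPrime] (h𝔯 : 𝔯 ≠ ⊥) (𝔓 : Ideal B) [𝔓.IsPrime] [𝔓.LiesOver 𝔯] :
    𝔓.ramificationIdx A * (normalizedFactors (span {β})).count 𝔯 =
      n * (normalizedFactors (span {γ})).count 𝔓 := by
  have hβ' : (span {β} : Ideal A) ≠ ⊥ := by simpa using hβ
  have hγ' : (span {γ} : Ideal B) ≠ ⊥ := by simpa using hγ
  have h𝔓 : 𝔓 ≠ ⊥ := Ideal.ne_bot_of_liesOver_of_ne_bot h𝔯 𝔓
  have hv : Irreducible 𝔯 := (Ideal.prime_of_isPrime h𝔯 inferInstance).irreducible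
  have hw : Irreducible 𝔓 := (Ideal.prime_of_isPrime h𝔓 inferInstance).irreducible
  have hmap : (span {β} : Ideal A).map (algebraMap A B) = span {γ} ^ n := by
    rw [Ideal.map_span, Set.image_singleton, Ideal.span_singleton_pow,
      Ideal.span_singleton_eq_span_singleton]
    exact h
  have key := Ideal.IsDedekindDomain.emultiplicity_map_eq_ramificationIdx'_mul
    (R := A) (S := B) hβ' hv hw h𝔓
  rw [hmap, Ideal.ramificationIdx'_eq_ramificationIdx 𝔯 𝔓 h𝔯,
    emultiplicity_eq_count_normalizedFactors hw (pow_ne_zero n hγ'),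
    emultiplicity_eq_count_normalizedFactors hv hβ', normalizedFactors_pow,
    Multiset.count_nsmul, normalize_eq, normalize_eq] at key
  exact_mod_cast key.symm

end Fermat.Agent.S14.Thaine
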