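import Mathlib

/-!
# S14 / Thaine, task TH-4a : the field `M = K(ζ_ℓ) = ℚ(ζ_{pℓ})`, `K = ℚ(ζ_p)`, `p ≠ ℓ` primes

Sketch.
* `isCyclotomicExtension_mul`: `IsCyclotomicExtension.trans {p} {ℓ} ℚ K M` gives
  `IsCyclotomicExtension ({p} ∪ {ℓ}) ℚ M`.  Use `IsCyclotomicExtension.iff_singleton` /
  `iff_adjoin_eq_top`: a primitive `p*ℓ`-th root is `algebraMap ζ * ξ`
  (`IsPrimitiveRoot.mul_isPrimitiveRoot_of_coprime` or `IsPrimitiveRoot.orderOf` + `Commute.orderOf_mul_eq_mul_orderOf_of_coprime`),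
  and every `b` with `b ^ p = 1` or `b ^ ℓ = 1` satisfies `b ^ (p*ℓ) = 1`, so the adjoin is still `⊤`.
* `finrank_eq`: `IsCyclotomicExtension.Rat.finrank` for `K` (`φ(p) = p-1`) and `M` (`φ(pℓ) = (p-1)(ℓ-1)`),
  `Module.finrank_mul_finrank ℚ K M`.
* `irreducible_cyclotomic`: take `M = CyclotomicField ℓ K`, `ξ = zeta`; `minpoly K ξ ∣ cyclotomic ℓ K`
  (`minpoly.dvd`, `IsPrimitiveRoot.isRoot_cyclotomic`), both monic, `natDegree (minpoly K ξ) = finrank K M = ℓ-1`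
  (`IsCyclotomicExtension.adjoin_primitive_root_eq_top`, `IntermediateField.adjoin.finrank` or the power basis
  `IsPrimitiveRoot.powerBasis`), `natDegree_cyclotomic`; so they are equal and `minpoly.irreducible`.
* `exists_generator`: `IsCyclotomicExtension.autEquivPow M (irreducible_cyclotomic ..) : Gal(M/K) ≃* (ZMod ℓ)ˣ`,
  `(ZMod ℓ)ˣ` is cyclic; transport a generator; `IsCyclotomicExtension.autEquivPow_apply` / `IsPrimitiveRoot.autToPow_spec`
  gives `g ξ = ξ ^ a` with `a = (unit : ZMod ℓ).val`, coprime to `ℓ` (`ZMod.val_coe_unit_coprime`).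
-/

set_option autoImplicit false

namespace Fermat.Agent.S14.Thaine

open NumberField Polynomial

theorem isPrimitiveRoot_mul_of_coprime {R : Type*} [CommMonoid R] {a b : R} {m n : ℕ}
    (ha : IsPrimitiveRoot a m) (hb : IsPrimitiveRoot b n) (h : m.Coprime n) :
    IsPrimitiveRoot (a * b) (m * n) := by
  have h1 := ha.eq_orderOf
  have h2 := hb.eq_orderOf
  have h3 : orderOf (a * b) = orderOf a * orderOf b :=
    (Commute.all a b).orderOf_mul_eq_mul_orderOf_of_coprime (by rwa [← h1, ← h2])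
  rw [h1, h2, ← h3]
  exact IsPrimitiveRoot.orderOf _

theorem isCyclotomicExtension_mul (p : ℕ) [Fact p.Prime] (K : Type*) [Field K] [NumberField K]
    [IsCyclotomicExtension {p} ℚ K] (ℓ : ℕ) [Fact ℓ.Prime] (M : Type*) [Field M] [NumberField M]
    [Algebra K M] [IsCyclotomicExtension {ℓ} K M] (hpℓ : p ≠ ℓ) :
    IsCyclotomicExtension {p * ℓ} ℚ M := by
  have hp : p.Prime := Fact.out
  have hℓ : ℓ.Prime := Fact.out
  have hcop : Nat.Coprime p ℓ := (Nat.coprime_primes hp hℓ).2 hpℓ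
  have : NeZero (p * ℓ) := ⟨Nat.mul_ne_zero hp.ne_zero hℓ.ne_zero⟩
  have h1 : IsCyclotomicExtension ({p} ∪ {ℓ}) ℚ M :=
    IsCyclotomicExtension.trans {p} {ℓ} ℚ K M (algebraMap K M).injective
  obtain ⟨ζ, hζ⟩ := h1.exists_isPrimitiveRoot (n := p) (by simp) hp.ne_zero
  obtain ⟨ξ, hξ⟩ := h1.exists_isPrimitiveRoot (n := ℓ) (by simp) hℓ.ne_zero
  rw [IsCyclotomicExtension.iff_singleton]
  refine ⟨⟨ζ * ξ, isPrimitiveRoot_mul_of_coprime hζ hξ hcop⟩, fun x => ?_⟩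
  have hx := h1.adjoin_roots x
  refine Algebra.adjoin_mono ?_ hx
  rintro b ⟨n, hn, -, hb⟩
  rcases hn with rfl | rfl
  · show b ^ (n * ℓ) = 1
    rw [pow_mul, hb, one_pow]
  · show b ^ (p * n) = 1
    rw [mul_comm, pow_mul, hb, one_pow]


theorem finrank_eq (p : ℕ) [Fact p.Prime] (K : Type*) [Field K] [NumberField K]
    [IsCyclotomicExtension {p} ℚ K] (ℓ : ℕ) [Fact ℓ.Prime] (M : Type*) [Field M] [NumberField M]
    [Algebra K M] [IsCyclotomicExtension {ℓ} K M] (hpℓ : p ≠ ℓ) :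
    Module.finrank K M = ℓ - 1 := by
  have hp : p.Prime := Fact.out
  have hℓ : ℓ.Prime := Fact.out
  have hcop : Nat.Coprime p ℓ := (Nat.coprime_primes hp hℓ).2 hpℓ
  have : NeZero (p * ℓ) := ⟨Nat.mul_ne_zero hp.ne_zero hℓ.ne_zero⟩
  have : NeZero p := ⟨hp.ne_zero⟩
  have hM := isCyclotomicExtension_mul p K ℓ M hpℓ
  have h1 : Module.finrank ℚ K = p - 1 := by
    rw [IsCyclotomicExtension.Rat.finrank p K, Nat.totient_prime hp]
  have h2 : Module.finrank ℚ M = (p - 1) * (ℓ - 1) := by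
    rw [IsCyclotomicExtension.Rat.finrank (p * ℓ) M, Nat.totient_mul hcop, Nat.totient_prime hp,
      Nat.totient_prime hℓ]
  have h3 := Module.finrank_mul_finrank ℚ K M
  rw [h1, h2] at h3
  exact Nat.eq_of_mul_eq_mul_left (by have := hp.two_le; omega) h3


theorem irreducible_cyclotomic (p : ℕ) [Fact p.Prime] (K : Type*) [Field K] [NumberField K]
    [IsCyclotomicExtension {p} ℚ K] (ℓ : ℕ) [Fact ℓ.Prime] (hpℓ : p ≠ ℓ) :
    Irreducible (cyclotomic ℓ K) := by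
  have hℓ : ℓ.Prime := Fact.out
  have : NeZero ℓ := ⟨hℓ.ne_zero⟩
  let M := CyclotomicField ℓ K
  have hfr : Module.finrank K M = ℓ - 1 := finrank_eq p K ℓ M hpℓ
  have hξ : IsPrimitiveRoot (IsCyclotomicExtension.zeta ℓ K M) ℓ :=
    IsCyclotomicExtension.zeta_spec ℓ K M
  set ξ := IsCyclotomicExtension.zeta ℓ K M
  have hint : IsIntegral K ξ := Algebra.IsIntegral.isIntegral ξ
  have hdvd : minpoly K ξ ∣ cyclotomic ℓ K := by
    apply minpoly.dvd
    have := hξ.isRoot_cyclotomic hℓ.pos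
    rwa [IsRoot.def, ← map_cyclotomic ℓ (algebraMap K M), eval_map_algebraMap] at this
  have hdeg : (minpoly K ξ).natDegree = ℓ - 1 := by
    rw [← hfr, (hξ.powerBasis K).finrank, ← (hξ.powerBasis K).natDegree_minpoly]
    simp
  have heq : cyclotomic ℓ K = minpoly K ξ := by
    refine Polynomial.eq_of_monic_of_dvd_of_natDegree_le (minpoly.monic hint)
      (cyclotomic.monic ℓ K) hdvd ?_
    rw [hdeg, natDegree_cyclotomic, Nat.totient_prime hℓ]
  rw [heq]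
  exact minpoly.irreducible hint


theorem exists_generator (p : ℕ) [Fact p.Prime] {K : Type*} [Field K] [NumberField K]
    [IsCyclotomicExtension {p} ℚ K] {ℓ : ℕ} [Fact ℓ.Prime] {M : Type*} [Field M] [NumberField M]
    [Algebra K M] [IsCyclotomicExtension {ℓ} K M] (hpℓ : p ≠ ℓ) {ξ : M}
    (hξ : IsPrimitiveRoot ξ ℓ) :
    ∃ (g : M ≃ₐ[K] M) (a : ℕ), (∀ x, x ∈ Subgroup.zpowers g) ∧ g ξ = ξ ^ a ∧ a.Coprime ℓ := by
  have hℓ : ℓ.Prime := Fact.out
  have : NeZero ℓ := ⟨hℓ.ne_zero⟩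
  have hirr := irreducible_cyclotomic p K ℓ hpℓ
  let e : (M ≃ₐ[K] M) ≃* (ZMod ℓ)ˣ := IsCyclotomicExtension.autEquivPow M hirr
  obtain ⟨u, hu⟩ := IsCyclic.exists_generator (α := (ZMod ℓ)ˣ)
  refine ⟨e.symm u, (u : ZMod ℓ).val, fun x => ?_, ?_, ZMod.val_coe_unit_coprime u⟩
  · obtain ⟨k, hk⟩ := Subgroup.mem_zpowers_iff.1 (hu (e x))
    refine Subgroup.mem_zpowers_iff.2 ⟨k, ?_⟩
    rw [← map_zpow, hk, MulEquiv.symm_apply_apply]
  · have hζ0 := IsCyclotomicExtension.zeta_spec ℓ K M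
    have h1 := hζ0.autToPow_spec K (e.symm u)
    have h2 : hζ0.autToPow K (e.symm u) = u := by
      have : e (e.symm u) = u := e.apply_symm_apply u
      rwa [IsCyclotomicExtension.autEquivPow_apply] at this
    rw [h2] at h1
    obtain ⟨i, -, hi⟩ := hζ0.eq_pow_of_pow_eq_one hξ.pow_eq_one
    rw [← hi, map_pow, ← h1, ← pow_mul, ← pow_mul, mul_comm]


end Fermat.Agent.S14.Thaine
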