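import Mathlib

/-!
# S14 / Thaine, task TH-4e : `Gal(M/K)` acts trivially on `𝓞 M ⧸ 𝔏` for `𝔏 ∣ ℓ`

`K = ℚ(ζ_p)`, `M = ℚ(ζ_{pℓ})`.

Sketch.  Let `μ = zeta (p*ℓ) ℚ M`, `hμ` its spec.  `IsCyclotomicExtension.Rat.adjoin_singleton_eq_top`
(`Mathlib/NumberTheory/NumberField/Cyclotomic/Basic.lean`): `Algebra.adjoin ℤ {hμ.toInteger} = ⊤` in `𝓞 M`.
The set `{x | s x - x ∈ 𝔏}` (`s = galRestrict .. g`) is closed under `+`, `*`
(`s(xy) - xy = s x * (s y - y) + (s x - x) * y`) and contains `ℤ`; use `Algebra.adjoin_induction`.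
For the generator: `μ^ℓ` is a `p`-th root of unity of `M`, hence lies in the image of `K`
(`K` contains a primitive `p`-th root `ζ`, and all `p`-th roots of unity of `M` are powers of `algebraMap ζ`:
`IsPrimitiveRoot.eq_pow_of_pow_eq_one`), so `g (μ^ℓ) = μ^ℓ`, i.e. `(s m)^ℓ = m^ℓ` for `m = hμ.toInteger`.
In `𝓞 M ⧸ 𝔏`, which has characteristic `ℓ`, `(s m - m)^ℓ = (s m)^ℓ - m^ℓ = 0`, and `𝔏` is prime.
-/

set_option autoImplicit false

namespace Fermat.Agent.S14.Thaine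

open NumberField Ideal

theorem galRestrict_sub_mem (p : ℕ) [Fact p.Prime] {K : Type*} [Field K] [NumberField K]
    [IsCyclotomicExtension {p} ℚ K] {ℓ : ℕ} [Fact ℓ.Prime] {M : Type*} [Field M] [NumberField M]
    [Algebra K M] [IsCyclotomicExtension {p * ℓ} ℚ M] (hpℓ : p ≠ ℓ) (𝔏 : Ideal (𝓞 M)) [𝔏.IsPrime]
    (hℓ : (ℓ : 𝓞 M) ∈ 𝔏) (g : M ≃ₐ[K] M) (x : 𝓞 M) :
    galRestrict (𝓞 K) K M (𝓞 M) g x - x ∈ 𝔏 := by
  classical
  have hp : p.Prime := Fact.out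
  have hl : ℓ.Prime := Fact.out
  have : NeZero (p * ℓ) := ⟨Nat.mul_ne_zero hp.ne_zero hl.ne_zero⟩
  have : NeZero p := ⟨hp.ne_zero⟩
  set s := galRestrict (𝓞 K) K M (𝓞 M) g with hs
  have hμ : IsPrimitiveRoot (IsCyclotomicExtension.zeta (p * ℓ) ℚ M) (p * ℓ) :=
    IsCyclotomicExtension.zeta_spec (p * ℓ) ℚ M
  set μ : M := IsCyclotomicExtension.zeta (p * ℓ) ℚ M with hμdef
  have hζ : IsPrimitiveRoot (IsCyclotomicExtension.zeta p ℚ K) p :=
    IsCyclotomicExtension.zeta_spec p ℚ K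
  set ζ : K := IsCyclotomicExtension.zeta p ℚ K with hζdef
  have hζM : IsPrimitiveRoot (algebraMap K M ζ) p :=
    hζ.map_of_injective (algebraMap K M).injective
  -- `g` fixes `μ ^ ℓ`
  have hfix : g (μ ^ ℓ) = μ ^ ℓ := by
    have h1 : (μ ^ ℓ) ^ p = 1 := by
      rw [← pow_mul, mul_comm ℓ p]; exact hμ.pow_eq_one
    obtain ⟨i, -, hi⟩ := hζM.eq_pow_of_pow_eq_one h1
    rw [← hi, ← map_pow, g.commutes]
  have htop := IsCyclotomicExtension.Rat.adjoin_singleton_eq_top hμ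
  have hx : x ∈ Algebra.adjoin ℤ {hμ.toInteger} := by rw [htop]; trivial
  -- the generator
  have hpowℓ : (s hμ.toInteger) ^ ℓ = hμ.toInteger ^ ℓ := by
    apply FaithfulSMul.algebraMap_injective (𝓞 M) M
    rw [map_pow, map_pow, hs, algebraMap_galRestrict_apply]
    have : algebraMap (𝓞 M) M hμ.toInteger = μ := rfl
    rw [this, ← map_pow, hfix]
  have hgen : s hμ.toInteger - hμ.toInteger ∈ 𝔏 := by
    have hchar : CharP (𝓞 M ⧸ 𝔏) ℓ := by
      rw [CharP.charP_iff_prime_eq_zero hl]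
      have := Ideal.Quotient.eq_zero_iff_mem.2 hℓ
      simpa using this
    have h2 : (s hμ.toInteger - hμ.toInteger) ^ ℓ ∈ 𝔏 := by
      rw [← Ideal.Quotient.eq_zero_iff_mem, map_pow, map_sub, sub_pow_char,
        ← map_pow (Ideal.Quotient.mk 𝔏), ← map_pow (Ideal.Quotient.mk 𝔏), hpowℓ, sub_self]
    exact Ideal.IsPrime.mem_of_pow_mem inferInstance ℓ h2
  induction hx using Algebra.adjoin_induction with
  | mem y hy =>
    rw [Set.mem_singleton_iff] at hy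
    rw [hy]; exact hgen
  | algebraMap r => simp
  | add y z _ _ hy hz =>
    have : s (y + z) - (y + z) = (s y - y) + (s z - z) := by rw [map_add]; ring
    rw [this]; exact 𝔏.add_mem hy hz
  | mul y z _ _ hy hz =>
    have : s (y * z) - y * z = s y * (s z - z) + (s y - y) * z := by rw [map_mul]; ring
    rw [this]; exact 𝔏.add_mem (𝔏.mul_mem_left _ hz) (𝔏.mul_mem_right _ hy)

end Fermat.Agent.S14.Thaine
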