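import Mathlib

/-!
# S14 / Thaine, task TH-4b : `1 - ζ_p ζ_ℓ` is a unit of relative norm `1`

Sketch.
* `norm_one_sub_mul`: `N_{M/K}(1 - ζ ξ) = ∏_{j=1}^{ℓ-1} (1 - ζ ξ^j) = (1 - ζ^ℓ)/(1 - ζ) = 1` since `ζ^ℓ = ζ`
  (`ℓ % p = 1`).  We compute in an algebraic closure: the norm is the product over the embeddings,
  which are in bijection with the primitive `ℓ`-th roots of unity.
* `isUnit_one_sub_mul`: `μ = algebraMap ζ * ξ` is a primitive `p*ℓ`-th root of unity of `M`;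
  the norm of `μ - 1` is the value at `1` of the cyclotomic polynomial, which is `1` since `p*ℓ`
  is not a prime power.
-/

set_option autoImplicit false

namespace Fermat.Agent.S14.Thaine

open NumberField Polynomial

/-- `∏ (1 - z μ) = 1` over the primitive `ℓ`-th roots of unity `μ`, if `z ^ ℓ = z`, `z ≠ 0, 1`. -/
theorem prod_one_sub_mul_primitiveRoots {E : Type*} [Field E] {ℓ : ℕ} [Fact ℓ.Prime] {x : E}
    (hx : IsPrimitiveRoot x ℓ) {z : E} (hz0 : z ≠ 0) (hz1 : z ≠ 1) (hzℓ : z ^ ℓ = z) :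
    ∏ μ ∈ primitiveRoots ℓ E, (1 - z * μ) = 1 := by
  have hℓ : ℓ.Prime := Fact.out
  have h1 : ∀ μ ∈ primitiveRoots ℓ E, (1 - z * μ) = z * (z⁻¹ - μ) := by
    intro μ _
    field_simp
  rw [Finset.prod_congr rfl h1, Finset.prod_mul_distrib, Finset.prod_const,
    hx.card_primitiveRoots, Nat.totient_prime hℓ]
  have h2 : ∏ μ ∈ primitiveRoots ℓ E, (z⁻¹ - μ) = eval z⁻¹ (cyclotomic ℓ E) := by
    rw [cyclotomic_eq_prod_X_sub_primitiveRoots hx, eval_prod]
    simp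
  have h3 : z ^ (ℓ - 1) = 1 := by
    have h4 : z ^ (ℓ - 1) * z = 1 * z := by
      rw [← pow_succ, Nat.sub_add_cancel hℓ.one_le, hzℓ, one_mul]
    exact mul_right_cancel₀ hz0 h4
  have h5 : eval z⁻¹ (cyclotomic ℓ E) = 1 := by
    rw [cyclotomic_prime, eval_geom_sum]
    have h6 : z⁻¹ - 1 ≠ 0 := by
      rw [sub_ne_zero]
      intro h
      exact hz1 (by simpa using congrArg (·⁻¹) h)
    have h7 : (∑ i ∈ Finset.range ℓ, z⁻¹ ^ i) * (z⁻¹ - 1) = 1 * (z⁻¹ - 1) := by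
      rw [geom_sum_mul, inv_pow, hzℓ, one_mul]
    exact mul_right_cancel₀ h6 h7
  rw [h2, h3, h5, one_mul]

theorem norm_one_sub_mul {p : ℕ} [Fact p.Prime] {K : Type*} [Field K] [NumberField K]
    {ℓ : ℕ} [Fact ℓ.Prime] {M : Type*} [Field M] [NumberField M]
    [Algebra K M] [IsCyclotomicExtension {ℓ} K M] (hirr : Irreducible (cyclotomic ℓ K))
    (hℓp : ℓ % p = 1) {ζ : K} (hζ : IsPrimitiveRoot ζ p) {ξ : M}
    (hξ : IsPrimitiveRoot ξ ℓ) : Algebra.norm K (1 - algebraMap K M ζ * ξ) = 1 := by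
  have hp : p.Prime := Fact.out
  let E := AlgebraicClosure M
  apply (algebraMap K E).injective
  let := IsCyclotomicExtension.finiteDimensional {ℓ} K M
  let := IsCyclotomicExtension.isGalois {ℓ} K M
  rw [Algebra.norm_eq_prod_embeddings, map_one]
  set z : E := algebraMap K E ζ with hz
  have hzp : IsPrimitiveRoot z p := hζ.map_of_injective (algebraMap K E).injective
  have hz0 : z ≠ 0 := hzp.ne_zero hp.ne_zero
  have hz1 : z ≠ 1 := hzp.ne_one hp.one_lt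
  have hzℓ : z ^ ℓ = z := by
    conv_lhs => rw [← Nat.div_add_mod ℓ p, hℓp, pow_succ, pow_mul, hzp.pow_eq_one, one_pow, one_mul]
  have hxE : IsPrimitiveRoot (algebraMap M E ξ) ℓ :=
    hξ.map_of_injective (algebraMap M E).injective
  have h1 : ∀ σ : M →ₐ[K] E, σ (1 - algebraMap K M ζ * ξ) = 1 - z * σ ξ := by
    intro σ
    rw [map_sub, map_one, map_mul, AlgHom.commutes]
  have Hprod : ∏ σ : M →ₐ[K] E, (1 - z * σ ξ) = ∏ μ ∈ primitiveRoots ℓ E, (1 - z * μ) := by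
    rw [← Finset.prod_attach (primitiveRoots ℓ E) (fun μ => 1 - z * μ), ← Finset.univ_eq_attach]
    refine Fintype.prod_equiv (hξ.embeddingsEquivPrimitiveRoots E hirr) _ _ fun σ => ?_
    simp
  rw [Finset.prod_congr rfl fun σ _ => h1 σ, Hprod,
    prod_one_sub_mul_primitiveRoots hxE hz0 hz1 hzℓ]

theorem isUnit_one_sub_mul {p : ℕ} [Fact p.Prime] {K : Type*} [Field K] [NumberField K]
    {ℓ : ℕ} [Fact ℓ.Prime] {M : Type*} [Field M] [NumberField M]
    [Algebra K M] [IsCyclotomicExtension {p * ℓ} ℚ M] (hpℓ : p ≠ ℓ) {ζ : K}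
    (hζ : IsPrimitiveRoot ζ p) {ξ : M} (hξ : IsPrimitiveRoot ξ ℓ) :
    IsUnit (1 - algebraMap (𝓞 K) (𝓞 M) hζ.toInteger * hξ.toInteger) := by
  have hp : p.Prime := Fact.out
  have hℓ : ℓ.Prime := Fact.out
  have hζM : IsPrimitiveRoot (algebraMap K M ζ) p :=
    hζ.map_of_injective (algebraMap K M).injective
  have hcop : Nat.Coprime p ℓ := (Nat.coprime_primes hp hℓ).2 hpℓ
  have hμ : IsPrimitiveRoot (algebraMap K M ζ * ξ) (p * ℓ) := by
    have h1 := IsPrimitiveRoot.orderOf (algebraMap K M ζ * ξ)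
    rwa [(Commute.all _ _).orderOf_mul_eq_mul_orderOf_of_coprime
      (by rwa [← hζM.eq_orderOf, ← hξ.eq_orderOf]), ← hζM.eq_orderOf, ← hξ.eq_orderOf] at h1
  have h2 : 2 < p * ℓ := by
    have h3 := hp.two_le
    have h4 := hℓ.two_le
    nlinarith
  have hnpp : ∀ {q : ℕ}, Nat.Prime q → ∀ k : ℕ, q ^ k ≠ p * ℓ := by
    intro q hq k hk
    have hpq : p = q := (Nat.prime_dvd_prime_iff_eq hp hq).1
      (hp.dvd_of_dvd_pow (hk ▸ Dvd.intro _ rfl))
    have hℓq : ℓ = q := (Nat.prime_dvd_prime_iff_eq hℓ hq).1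
      (hℓ.dvd_of_dvd_pow (hk ▸ Dvd.intro_left _ rfl))
    exact hpℓ (hpq.trans hℓq.symm)
  have hnorm : Algebra.norm ℚ (algebraMap K M ζ * ξ - 1) = 1 := by
    rw [hμ.sub_one_norm_eq_eval_cyclotomic h2
      (cyclotomic.irreducible_rat (Nat.mul_pos hp.pos hℓ.pos)),
      eval_one_cyclotomic_not_prime_pow hnpp, Int.cast_one]
  rw [← neg_sub, IsUnit.neg_iff, NumberField.isUnit_iff_norm, RingOfIntegers.coe_norm]
  have hcoe : ((algebraMap (𝓞 K) (𝓞 M) hζ.toInteger * hξ.toInteger - 1 : 𝓞 M) : M)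
      = algebraMap K M ζ * ξ - 1 := by
    have hA : algebraMap (𝓞 M) M (algebraMap (𝓞 K) (𝓞 M) hζ.toInteger) = algebraMap K M ζ := by
      rw [← IsScalarTower.algebraMap_apply (𝓞 K) (𝓞 M) M,
        IsScalarTower.algebraMap_apply (𝓞 K) K M]
      rfl
    have hB : algebraMap (𝓞 M) M hξ.toInteger = ξ := rfl
    change algebraMap (𝓞 M) M (algebraMap (𝓞 K) (𝓞 M) hζ.toInteger * hξ.toInteger - 1) = _
    rw [map_sub, map_mul, map_one, hA, hB]
  rw [hcoe, hnorm, abs_one]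

end Fermat.Agent.S14.Thaine
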