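import Mathlib

/-!
# S14 / Thaine, task TH-4c : ramification in `M = ℚ(ζ_{pℓ})` over `K = ℚ(ζ_p)`

Sketch.  Everything is in `Mathlib/NumberTheory/NumberField/Cyclotomic/Ideal.lean`
(`IsCyclotomicExtension.Rat.ramificationIdx_eq_of_not_dvd`, `ramificationIdx_eq`, `ramificationIdx_eq_of_prime`)
plus multiplicativity in the tower `ℤ ⊆ 𝓞 K ⊆ 𝓞 M` (`Ideal.ramificationIdx_tower`).
Let `𝔯 = 𝔓.under (𝓞 K)`, and `r` the rational prime with `𝔓.LiesOver (span {(r:ℤ)})`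
(`𝔓.under ℤ` is a nonzero prime of `ℤ`).
* `r ∉ {p, ℓ}`: `e(𝔓|ℤ) = 1` (`ramificationIdx_eq_of_not_dvd`, `m = p*ℓ`), and `e(𝔓|𝓞 K) ∣ e(𝔓|ℤ)`.
* `r = p`: `e(𝔓|ℤ) = p - 1` (`ramificationIdx_eq (n := p*ℓ) (k := 0) (m := ℓ)`), `e(𝔯|ℤ) = p - 1`
  (`ramificationIdx_eq_of_prime`), so `e(𝔓|𝓞 K) = 1`.
* `r = ℓ`: `e(𝔏|ℤ) = ℓ - 1` (`n = ℓ^(0+1) * p`), `e(𝔩|ℤ) = 1` (`ramificationIdx_eq_of_not_dvd`, `m = p`).
-/

set_option autoImplicit false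

namespace Fermat.Agent.S14.Thaine

open NumberField Ideal

/-- A nonzero prime of `𝓞 M` lies over `span {r}` for a rational prime `r`. -/
theorem cycloRam_exists_prime_liesOver_span {M : Type*} [Field M] [NumberField M] (𝔓 : Ideal (𝓞 M))
    [𝔓.IsPrime] (h0 : 𝔓 ≠ ⊥) :
    ∃ r : ℕ, r.Prime ∧ 𝔓.LiesOver (span {(r : ℤ)}) := by
  have : NeZero 𝔓 := ⟨h0⟩
  exact ⟨absNorm (under ℤ 𝔓), Nat.absNorm_under_prime 𝔓, inferInstance⟩

/-- If `𝔓` lies over `span {r}`, then `r ∈ 𝔓`. -/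
theorem cycloRam_natCast_mem_of_liesOver_span {M : Type*} [Field M] [NumberField M] (𝔓 : Ideal (𝓞 M))
    (r : ℕ) [h : 𝔓.LiesOver (span {(r : ℤ)})] : (r : 𝓞 M) ∈ 𝔓 := by
  have h1 : (r : ℤ) ∈ 𝔓.under ℤ := by
    rw [← h.over]
    exact mem_span_singleton_self _
  simpa [Ideal.mem_comap] using h1

/-- If `ℓ ∈ 𝔏` for a prime ideal `𝔏` and a rational prime `ℓ`, then `𝔏` lies over `span {ℓ}`. -/
theorem cycloRam_liesOver_span_of_natCast_mem {M : Type*} [Field M] [NumberField M] (𝔏 : Ideal (𝓞 M))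
    [𝔏.IsPrime] {ℓ : ℕ} (hp : ℓ.Prime) (hℓ : (ℓ : 𝓞 M) ∈ 𝔏) : 𝔏.LiesOver (span {(ℓ : ℤ)}) := by
  constructor
  have : Fact ℓ.Prime := ⟨hp⟩
  have hmax : (span {(ℓ : ℤ)}).IsMaximal := Int.ideal_span_isMaximal_of_prime ℓ
  have hle : span {(ℓ : ℤ)} ≤ 𝔏.under ℤ := by
    rw [span_singleton_le_iff_mem]
    simpa [Ideal.mem_comap] using hℓ
  exact hmax.eq_of_le (IsPrime.ne_top inferInstance) hle

theorem ramificationIdx_eq_one (p : ℕ) [Fact p.Prime] (K : Type*) [Field K] [NumberField K]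
    [IsCyclotomicExtension {p} ℚ K] {ℓ : ℕ} [Fact ℓ.Prime] {M : Type*} [Field M] [NumberField M]
    [Algebra K M] [IsCyclotomicExtension {p * ℓ} ℚ M] (hpℓ : p ≠ ℓ) (𝔓 : Ideal (𝓞 M)) [𝔓.IsPrime]
    (h0 : 𝔓 ≠ ⊥) (hℓ : (ℓ : 𝓞 M) ∉ 𝔓) : 𝔓.ramificationIdx (𝓞 K) = 1 := by
  have hp : p.Prime := Fact.out
  have hl : ℓ.Prime := Fact.out
  obtain ⟨r, hr, hover⟩ := cycloRam_exists_prime_liesOver_span 𝔓 h0
  have : Fact r.Prime := ⟨hr⟩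
  have hrℓ : r ≠ ℓ := by
    rintro rfl
    exact hℓ (cycloRam_natCast_mem_of_liesOver_span 𝔓 r)
  have htower := Ideal.ramificationIdx_tower (R := ℤ) (𝔓.under (𝓞 K)) 𝔓
  by_cases hrp : r = p
  · subst hrp
    have : (𝔓.under (𝓞 K)).LiesOver (span {(r : ℤ)}) :=
      LiesOver.tower_bot 𝔓 (𝔓.under (𝓞 K)) (span {(r : ℤ)})
    have h1 : 𝔓.ramificationIdx ℤ = r ^ 0 * (r - 1) :=
      IsCyclotomicExtension.Rat.ramificationIdx_eq (r * ℓ) (m := ℓ) (k := 0) M 𝔓 (by simp)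
        (fun h => hpℓ ((Nat.prime_dvd_prime_iff_eq hp hl).mp h))
    have h2 : (𝔓.under (𝓞 K)).ramificationIdx ℤ = r - 1 :=
      IsCyclotomicExtension.Rat.ramificationIdx_eq_of_prime r K (𝔓.under (𝓞 K))
    rw [h1, h2, pow_zero, one_mul] at htower
    have hpos : 0 < r - 1 := by have := hp.two_le; omega
    exact (Nat.eq_of_mul_eq_mul_left hpos (by rw [mul_one]; exact htower)).symm
  · have : NeZero (p * ℓ) := ⟨Nat.mul_ne_zero hp.ne_zero hl.ne_zero⟩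
    have h1 : 𝔓.ramificationIdx ℤ = 1 :=
      IsCyclotomicExtension.Rat.ramificationIdx_eq_of_not_dvd (m := p * ℓ) r M 𝔓 (by
        intro h
        rcases (Nat.Prime.dvd_mul hr).mp h with h | h
        · exact hrp ((Nat.prime_dvd_prime_iff_eq hr hp).mp h)
        · exact hrℓ ((Nat.prime_dvd_prime_iff_eq hr hl).mp h))
    rw [h1] at htower
    exact Nat.eq_one_of_mul_eq_one_left htower.symm

theorem ramificationIdx_eq_sub_one (p : ℕ) [Fact p.Prime] (K : Type*) [Field K] [NumberField K]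
    [IsCyclotomicExtension {p} ℚ K] {ℓ : ℕ} [Fact ℓ.Prime] {M : Type*} [Field M] [NumberField M]
    [Algebra K M] [IsCyclotomicExtension {p * ℓ} ℚ M] (hpℓ : p ≠ ℓ) (𝔏 : Ideal (𝓞 M)) [𝔏.IsPrime]
    (hℓ : (ℓ : 𝓞 M) ∈ 𝔏) : 𝔏.ramificationIdx (𝓞 K) = ℓ - 1 := by
  have hp : p.Prime := Fact.out
  have hl : ℓ.Prime := Fact.out
  have hover : 𝔏.LiesOver (span {(ℓ : ℤ)}) := cycloRam_liesOver_span_of_natCast_mem 𝔏 hl hℓ
  have : (𝔏.under (𝓞 K)).LiesOver (span {(ℓ : ℤ)}) :=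
    LiesOver.tower_bot 𝔏 (𝔏.under (𝓞 K)) (span {(ℓ : ℤ)})
  have : NeZero p := ⟨hp.ne_zero⟩
  have hnd : ¬ ℓ ∣ p := fun h => hpℓ ((Nat.prime_dvd_prime_iff_eq hl hp).mp h).symm
  have htower := Ideal.ramificationIdx_tower (R := ℤ) (𝔏.under (𝓞 K)) 𝔏
  have h1 : 𝔏.ramificationIdx ℤ = ℓ ^ 0 * (ℓ - 1) :=
    IsCyclotomicExtension.Rat.ramificationIdx_eq (p * ℓ) (m := p) (k := 0) M 𝔏
      (by simp [mul_comm]) hnd
  have h2 : (𝔏.under (𝓞 K)).ramificationIdx ℤ = 1 :=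
    IsCyclotomicExtension.Rat.ramificationIdx_eq_of_not_dvd (m := p) ℓ K (𝔏.under (𝓞 K)) hnd
  rw [h1, h2, pow_zero, one_mul, one_mul] at htower
  exact htower.symm

end Fermat.Agent.S14.Thaine
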