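import Mathlib

/-!
# S14 / Thaine, task TH-4d : `1 - ζ_ℓ` is a uniformizer at every prime of `ℚ(ζ_{pℓ})` above `ℓ`

Sketch.  In `𝓞 M`: `Associated ((ξ - 1) ^ (ℓ - 1)) (ℓ : 𝓞 M)`:  `ℓ = ∏_{j=1}^{ℓ-1} (1 - ξ^j)`
(evaluate `cyclotomic ℓ` at `1`: `Polynomial.eval_one_cyclotomic_prime`, `Polynomial.cyclotomic_eq_prod_X_sub_primitiveRoots`,
or `IsPrimitiveRoot.pow_sub_pow_eq_prod_sub_mul` / geom_sum) and each `1 - ξ^j` is associated to `1 - ξ`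
(`IsPrimitiveRoot.associated_sub_one_pow_sub_one_of_coprime` in `Mathlib/RingTheory/RootsOfUnity/CyclotomicUnits.lean`).
See how `IsCyclotomicExtension.Rat.associated_zeta_sub_one_pow_prime` is proved in
`Mathlib/NumberTheory/NumberField/Cyclotomic/Ideal.lean`.
* `one_sub_mem`: `ℓ ∈ 𝔏` prime ⇒ `(ξ-1)^(ℓ-1) ∈ 𝔏` ⇒ `ξ - 1 ∈ 𝔏`.
* `one_sub_not_mem_sq`: `𝔏.LiesOver (span {(ℓ:ℤ)})`; `e(𝔏|ℤ) = ℓ - 1`
  (`IsCyclotomicExtension.Rat.ramificationIdx_eq (n := p*ℓ) (p := ℓ) (k := 0) (m := p)`), i.e. the count of `𝔏` in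
  `span {(ℓ : 𝓞 M)}` is `ℓ - 1` (`Ideal.IsDedekindDomain.ramificationIdx_eq_normalizedFactors_count`).  If `ξ - 1 ∈ 𝔏^2` then
  `𝔏 ^ (2(ℓ-1)) ∣ span {ℓ}`, so `2(ℓ-1) ≤ ℓ - 1`, absurd.
-/

set_option autoImplicit false

namespace Fermat.Agent.S14.Thaine

open NumberField Ideal

theorem one_sub_mem {ℓ : ℕ} [Fact ℓ.Prime] {M : Type*} [Field M] [NumberField M]
    (𝔏 : Ideal (𝓞 M)) [𝔏.IsPrime] (hℓ : (ℓ : 𝓞 M) ∈ 𝔏) {ξ : M}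
    (hξ : IsPrimitiveRoot ξ ℓ) : 1 - hξ.toInteger ∈ 𝔏 := by
  have h := IsCyclotomicExtension.Rat.associated_zeta_sub_one_pow_prime ℓ hξ
  have h1 : (hξ.toInteger - 1) ^ (ℓ - 1) ∈ 𝔏 := by
    obtain ⟨u, hu⟩ := h.symm
    rw [← hu]
    exact 𝔏.mul_mem_right _ hℓ
  have h2 := IsPrime.mem_of_pow_mem inferInstance _ h1
  rw [← neg_sub]
  exact 𝔏.neg_mem h2

/-- a prime of `𝓞 M` containing `ℓ` lies over `(ℓ)` -/
theorem liesOver_span_of_natCast_mem {ℓ : ℕ} [Fact ℓ.Prime] {M : Type*} [Field M] [NumberField M]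
    (𝔏 : Ideal (𝓞 M)) [𝔏.IsPrime] (hℓ : (ℓ : 𝓞 M) ∈ 𝔏) : 𝔏.LiesOver (span {(ℓ : ℤ)}) := by
  constructor
  have hmax : (span {(ℓ : ℤ)}).IsMaximal :=
    Int.ideal_span_isMaximal_of_prime ℓ
  refine hmax.eq_of_le (IsPrime.under ℤ 𝔏).ne_top ?_
  rw [span_singleton_le_iff_mem, under, mem_comap]
  simpa using hℓ

theorem one_sub_not_mem_sq (p : ℕ) [Fact p.Prime] {ℓ : ℕ} [Fact ℓ.Prime] {M : Type*} [Field M]
    [NumberField M] [IsCyclotomicExtension {p * ℓ} ℚ M] (hpℓ : p ≠ ℓ) (𝔏 : Ideal (𝓞 M))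
    [𝔏.IsPrime] (hℓ : (ℓ : 𝓞 M) ∈ 𝔏) {ξ : M} (hξ : IsPrimitiveRoot ξ ℓ) :
    1 - hξ.toInteger ∉ 𝔏 ^ 2 := by
  intro hmem
  have hℓp : ℓ.Prime := Fact.out
  have hpp : p.Prime := Fact.out
  have := liesOver_span_of_natCast_mem 𝔏 hℓ
  have he : 𝔏.ramificationIdx ℤ = ℓ ^ 0 * (ℓ - 1) :=
    IsCyclotomicExtension.Rat.ramificationIdx_eq (p * ℓ) M 𝔏 (p := ℓ) (k := 0) (m := p)
      (by rw [zero_add, pow_one, mul_comm])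
      (fun h => hpℓ ((Nat.prime_dvd_prime_iff_eq hℓp hpp).1 h).symm)
  rw [pow_zero, one_mul] at he
  have hmap : (span {(ℓ : ℤ)}).map (algebraMap ℤ (𝓞 M)) = span {(ℓ : 𝓞 M)} := by
    rw [map_span, Set.image_singleton]; simp
  have hne : (span {(ℓ : ℤ)}).map (algebraMap ℤ (𝓞 M)) ≠ ⊥ := by
    rw [hmap, Ne, span_singleton_eq_bot]
    exact_mod_cast hℓp.ne_zero
  have hmult := IsDedekindDomain.ramificationIdx_eq_multiplicity (span {(ℓ : ℤ)}) 𝔏 hne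
  have h := IsCyclotomicExtension.Rat.associated_zeta_sub_one_pow_prime ℓ hξ
  have hsub : hξ.toInteger - 1 ∈ 𝔏 ^ 2 := by
    rw [← neg_sub]; exact (𝔏 ^ 2).neg_mem hmem
  have hle : (span {(ℓ : ℤ)}).map (algebraMap ℤ (𝓞 M)) ≤ 𝔏 ^ (2 * (ℓ - 1)) := by
    rw [hmap, span_singleton_le_iff_mem, pow_mul]
    obtain ⟨u, hu⟩ := h
    rw [← hu]
    exact Ideal.mul_mem_right _ _ (Ideal.pow_mem_pow hsub _)
  have hdvd : 𝔏 ^ (2 * (ℓ - 1)) ∣ (span {(ℓ : ℤ)}).map (algebraMap ℤ (𝓞 M)) :=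
    Ideal.dvd_iff_le.2 hle
  have hbot : 𝔏 ≠ ⊥ := fun hb => by
    rw [hb, mem_bot] at hℓ
    exact hℓp.ne_zero (by exact_mod_cast hℓ)
  have hfin : FiniteMultiplicity 𝔏 ((span {(ℓ : ℤ)}).map (algebraMap ℤ (𝓞 M))) :=
    FiniteMultiplicity.of_prime_left (prime_of_isPrime hbot inferInstance) hne
  have h3 := hfin.le_multiplicity_of_pow_dvd hdvd
  rw [← hmult, he] at h3
  have := hℓp.two_le
  omega

end Fermat.Agent.S14.Thaine
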