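import Mathlib

/-!
# S14 / Thaine, task TH-10 : universe-polymorphic integral Hilbert 90 for cyclic extensions

Mathlib's `groupCohomology.exists_div_of_norm_eq_one` and `groupCohomology.exists_mul_galRestrict_of_norm_eq_one`
are stated for `K L : Type` only.  We need them for `K L : Type*`.

Sketch.  Field version: `x : L`, `N x = 1`, `g` a generator, `n = orderOf g = card Gal(L/K)`.
Route A (cocycle): `groupCohomology.isMulCoboundary₁_of_isMulCocycle₁_of_aut_to_units` IS universe polymorphic; define
`f (g ^ i) = ∏ j ∈ range i, g ^ j x` (well defined since `∏ j ∈ range n, g^j x = N x = 1`, `Algebra.norm_eq_prod_automorphisms`), check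
the cocycle identity, get `y` with `g y / y = f g = x` (or its inverse).
Route B (Lagrange resolvent): `φ = ∑ i ∈ range n, (∏ j ∈ range i, g^j x) • g^i` is a nonzero map by independence of
characters (`linearIndependent_algHom_toLinearMap` / `linearIndependent_monoidHom`), pick `θ` with `y = φ θ ≠ 0`; then `x * g y = y`.
Integral version: copy the Mathlib proof of `exists_mul_galRestrict_of_norm_eq_one`
(`Mathlib/RepresentationTheory/Homological/GroupCohomology/Hilbert90.lean`), it only uses the field version.
-/

set_option autoImplicit false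

namespace Fermat.Agent.S14.Thaine

theorem exists_mul_eq_of_norm_eq_one {K L : Type*} [Field K] [Field L] [Algebra K L]
    [FiniteDimensional K L] [IsGalois K L] {g : L ≃ₐ[K] L} (hg : ∀ x, x ∈ Subgroup.zpowers g)
    {x : L} (hx : Algebra.norm K x = 1) : ∃ y : L, y ≠ 0 ∧ x * g y = y := by
  classical
  set n := orderOf g with hn
  have hnpos : 0 < n := orderOf_pos g
  -- partial products
  let c : ℕ → L := fun i => ∏ j ∈ Finset.range i, (g ^ j) x
  have hc0 : c 0 = 1 := by simp [c]
  have hcsucc : ∀ i, x * g (c i) = c (i + 1) := by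
    intro i
    simp only [c]
    rw [map_prod, Finset.prod_range_succ']
    rw [pow_zero, AlgEquiv.one_apply, mul_comm]
    congr 1
    refine Finset.prod_congr rfl fun j _ => ?_
    rw [pow_succ', AlgEquiv.mul_apply]
  have hcn : c n = 1 := by
    have h1 : algebraMap K L (Algebra.norm K x) = ∏ σ : L ≃ₐ[K] L, σ x :=
      Algebra.norm_eq_prod_automorphisms K x
    rw [hx, map_one, ← IsCyclic.image_range_orderOf hg, Finset.prod_image] at h1
    · exact h1.symm
    · intro i hi j hj hij
      exact pow_injOn_Iio_orderOf (by simpa using hi) (by simpa using hj) hij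
  -- independence of characters
  have hli : LinearIndependent L (fun i : Fin n => (((g ^ (i : ℕ) : L ≃ₐ[K] L) : L →* L) : L → L)) :=
    LinearIndependent.comp (ι' := Fin n) (linearIndependent_monoidHom L L)
      (fun i => ((g ^ (i : ℕ) : L ≃ₐ[K] L) : L →* L))
      (fun i j hij => by
        apply Fin.ext
        apply pow_injOn_Iio_orderOf (x := g) i.2 j.2
        ext z
        exact DFunLike.congr_fun hij z)
  have hex : ∃ θ : L, ∑ i ∈ Finset.range n, c i * (g ^ i) θ ≠ 0 := by
    by_contra hcon
    push Not at hcon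
    have h0 : ∑ i : Fin n, c i • (((g ^ (i : ℕ) : L ≃ₐ[K] L) : L →* L) : L → L) = 0 := by
      funext θ
      have := hcon θ
      rw [← Fin.sum_univ_eq_sum_range (fun i => c i * (g ^ i) θ) n] at this
      simpa [Finset.sum_apply] using this
    have h1 := Fintype.linearIndependent_iff.mp hli (fun i => c i) h0 ⟨0, hnpos⟩
    simp only [hc0] at h1
    exact one_ne_zero h1
  obtain ⟨θ, hθ⟩ := hex
  refine ⟨_, hθ, ?_⟩
  rw [map_sum, Finset.mul_sum]
  have h2 : ∀ i ∈ Finset.range n, x * g (c i * (g ^ i) θ) = c (i + 1) * (g ^ (i + 1)) θ := by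
    intro i _
    rw [map_mul, ← mul_assoc, hcsucc, pow_succ', AlgEquiv.mul_apply]
  rw [Finset.sum_congr rfl h2]
  have h3 := Finset.sum_range_succ (fun i => c i * (g ^ i) θ) n
  have h4 := Finset.sum_range_succ' (fun i => c i * (g ^ i) θ) n
  rw [h3] at h4
  have h5 : c n * (g ^ n) θ = c 0 * (g ^ 0) θ := by
    rw [hcn, hc0, hn, pow_orderOf_eq_one, pow_zero]
  rw [h5] at h4
  exact (add_right_cancel h4).symm

theorem exists_mul_galRestrict_of_norm_eq_one {K L : Type*} [Field K] [Field L] [Algebra K L]
    [FiniteDimensional K L] [IsGalois K L] {g : L ≃ₐ[K] L} {A B : Type*} [CommRing A] [CommRing B]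
    [Algebra A B] [Algebra A L] [Algebra A K] [Algebra B L] [IsScalarTower A B L]
    [IsScalarTower A K L] [IsFractionRing A K] [IsDomain A] [IsIntegralClosure B A L]
    (hg : ∀ x, x ∈ Subgroup.zpowers g) {η : B} (hη : Algebra.norm K (algebraMap B L η) = 1) :
    ∃ ε : B, ε ≠ 0 ∧ η * galRestrict A K L B g ε = ε := by
  have : Module.IsTorsionFree A L := by
    rw [Module.isTorsionFree_iff_algebraMap_injective, IsScalarTower.algebraMap_eq A K L]
    exact (algebraMap K L).injective.comp (IsFractionRing.injective A K)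
  have : IsLocalization (Algebra.algebraMapSubmonoid B (nonZeroDivisors A)) L :=
    IsIntegralClosure.isLocalization A K L B
  obtain ⟨ε, hε0, hε⟩ := exists_mul_eq_of_norm_eq_one hg hη
  obtain ⟨a, b, h⟩ := IsLocalization.exists_mk'_eq
    (Algebra.algebraMapSubmonoid B (nonZeroDivisors A)) ε
  obtain ⟨t, ht, ht'⟩ := b.prop
  have hta : t • ε = algebraMap B L a := by
    rw [← h, Algebra.smul_def, IsScalarTower.algebraMap_apply A B L, ht', IsLocalization.mk'_spec']
  refine ⟨a, ?_, ?_⟩
  · rintro rfl
    rw [IsLocalization.mk'_zero] at h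
    exact hε0 h.symm
  · apply IsIntegralClosure.algebraMap_injective B A L
    rw [map_mul, algebraMap_galRestrict_apply, ← hta]
    have h1 : g (t • ε) = t • g ε := by
      rw [← g.toAlgHom_apply, AlgHom.map_smul_of_tower]
      rfl
    rw [h1, mul_smul_comm, hε]

end Fermat.Agent.S14.Thaine
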