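import Mathlib

/-!
# S14 / Thaine, task TH-0

In a Dedekind domain: if `p` divides the multiplicity in `I` of every prime outside the finite
set `S`, then `I = (∏_{𝔯 ∈ S} 𝔯 ^ mult) * 𝔠 ^ p`.

Sketch: `I = ∏ normalizedFactors I` (`Ideal.prod_normalizedFactors_eq_self`), write the multiset
product as `∏ 𝔯 ∈ (normalizedFactors I).toFinset, 𝔯 ^ count` (`Finset.prod_multiset_count`), split
`toFinset` into the part inside `S` and the part outside; primes of `S` not in `toFinset` have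
count `0`.  Outside `S` write `count = p * k 𝔯` and take `𝔠 = ∏ 𝔯 ^ k 𝔯`.
-/

set_option autoImplicit false

namespace Fermat.Agent.S14.Thaine

open Ideal UniqueFactorizationMonoid

open Classical in
theorem exists_eq_prod_mul_pow {A : Type*} [CommRing A] [IsDedekindDomain A] (I : Ideal A)
    (hI : I ≠ ⊥) (S : Finset (Ideal A)) (hS : ∀ 𝔯 ∈ S, 𝔯.IsPrime ∧ 𝔯 ≠ ⊥) (p : ℕ)
    (h : ∀ 𝔯 : Ideal A, 𝔯.IsPrime → 𝔯 ≠ ⊥ → 𝔯 ∉ S → p ∣ (normalizedFactors I).count 𝔯) :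
    ∃ 𝔠 : Ideal A, I = (∏ 𝔯 ∈ S, 𝔯 ^ (normalizedFactors I).count 𝔯) * 𝔠 ^ p := by
  set m := normalizedFactors I with hm
  set U := m.toFinset with hU
  refine ⟨∏ 𝔯 ∈ U \ S, 𝔯 ^ (m.count 𝔯 / p), ?_⟩
  have h1 : I = ∏ 𝔯 ∈ U, 𝔯 ^ m.count 𝔯 := by
    conv_lhs => rw [← Ideal.prod_normalizedFactors_eq_self hI]
    exact Finset.prod_multiset_count m
  have h2 : ∏ 𝔯 ∈ S, 𝔯 ^ m.count 𝔯 = ∏ 𝔯 ∈ U ∩ S, 𝔯 ^ m.count 𝔯 := by
    symm
    apply Finset.prod_subset Finset.inter_subset_right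
    intro 𝔯 hr hr'
    have : 𝔯 ∉ m := by
      intro hmem
      exact hr' (Finset.mem_inter.2 ⟨Multiset.mem_toFinset.2 hmem, hr⟩)
    rw [Multiset.count_eq_zero_of_notMem this, pow_zero]
  have h3 : (∏ 𝔯 ∈ U \ S, 𝔯 ^ (m.count 𝔯 / p)) ^ p = ∏ 𝔯 ∈ U \ S, 𝔯 ^ m.count 𝔯 := by
    rw [← Finset.prod_pow]
    apply Finset.prod_congr rfl
    intro 𝔯 hr
    obtain ⟨hrU, hrS⟩ := Finset.mem_sdiff.1 hr
    have hmem : 𝔯 ∈ normalizedFactors I := Multiset.mem_toFinset.1 hrU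
    have hprime : Prime 𝔯 := prime_of_normalized_factor 𝔯 hmem
    have hd := h 𝔯 (Ideal.isPrime_of_prime hprime) hprime.ne_zero hrS
    rw [← pow_mul, Nat.div_mul_cancel hd]
  rw [h2, h3, Finset.prod_inter_mul_prod_sdiff]
  exact h1

end Fermat.Agent.S14.Thaine
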