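import Mathlib

/-!
# S14 / Thaine, task TH-2 (the local computation at a totally ramified prime)

`B` Dedekind, `𝔏` a nonzero prime, `s` a ring automorphism acting trivially on `B ⧸ 𝔏`,
`ϖ ∈ 𝔏 \ 𝔏²` with `s ϖ = c * ϖ`, and `η * s γ = γ`, `γ ≠ 0`, `r = v_𝔏(γ)`.  Then `η * c ^ r ≡ 1 mod 𝔏`.

Sketch.  (1) There are `a b ∉ 𝔏` with `a * γ = b * ϖ ^ r`:  write `span {γ} = 𝔏 ^ r * 𝔄`, `¬ 𝔏 ∣ 𝔄`
(e.g. `Ideal.eq_prime_pow_mul_coprime`, or `UniqueFactorizationMonoid` / `emultiplicity` API) and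
`span {ϖ} = 𝔏 * 𝔅`, `¬ 𝔏 ∣ 𝔅` (because `ϖ ∈ 𝔏`, `ϖ ∉ 𝔏 ^ 2`).  As `𝔏` is prime, `𝔅 ^ r ⊄ 𝔏`: pick
`a ∈ 𝔅 ^ r`, `a ∉ 𝔏`.  Then `a * γ ∈ 𝔅 ^ r * 𝔏 ^ r * 𝔄 ≤ span {ϖ ^ r}`, so `a * γ = b * ϖ ^ r`.  If `b ∈ 𝔏`
then `𝔏 ^ (r+1) ∣ span {a} * span {γ}`, and `𝔏 ∤ span {a}` gives `𝔏 ^ (r+1) ∣ span {γ}`, contradiction
with `r = count`.
(2) Apply `s`: `s a * s γ = s b * c ^ r * ϖ ^ r`.  Multiply by `η * a` and use `η * s γ = γ`,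
`a * γ = b * ϖ ^ r`:  `s a * b * ϖ ^ r = η * a * s b * c ^ r * ϖ ^ r`; cancel `ϖ ^ r ≠ 0`.
(3) Modulo `𝔏`: `s a ≡ a`, `s b ≡ b`, hence `(η * c ^ r - 1) * (a * b) ∈ 𝔏`; `𝔏` prime, `a, b ∉ 𝔏`.
-/

set_option autoImplicit false

namespace Fermat.Agent.S14.Thaine

open Ideal UniqueFactorizationMonoid

/-- `ϖ ^ r` has exact valuation `r`. -/
theorem localCongr_pow_notMem {B : Type*} [CommRing B] [IsDedekindDomain B] (𝔏 : Ideal B)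
    [h𝔏p : 𝔏.IsPrime] (h𝔏 : 𝔏 ≠ ⊥) (ϖ : B) (hϖ1 : ϖ ∈ 𝔏) (hϖ2 : ϖ ∉ 𝔏 ^ 2) (r : ℕ) :
    ϖ ^ r ∉ 𝔏 ^ (r + 1) := by
  have hprime : Prime 𝔏 := Ideal.prime_of_isPrime h𝔏 h𝔏p
  have h1 : emultiplicity 𝔏 (span {ϖ}) = ((1 : ℕ) : ℕ∞) := by
    rw [emultiplicity_eq_coe]
    refine ⟨?_, ?_⟩
    · rw [pow_one, Ideal.dvd_span_singleton]; exact hϖ1
    · rw [Ideal.dvd_span_singleton]; exact hϖ2
  have h2 : emultiplicity 𝔏 (span {ϖ ^ r}) = (r : ℕ∞) := by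
    rw [← Ideal.span_singleton_pow, emultiplicity_pow hprime, h1]
    simp
  rw [emultiplicity_eq_coe] at h2
  rw [← Ideal.dvd_span_singleton]
  exact h2.2

/-- an automorphism which is trivial modulo `𝔏` preserves the powers of `𝔏`. -/
theorem localCongr_map_mem_pow {B : Type*} [CommRing B] (𝔏 : Ideal B) (s : B ≃+* B)
    (hs : ∀ x, s x - x ∈ 𝔏) (k : ℕ) {e : B} (he : e ∈ 𝔏 ^ k) : s e ∈ 𝔏 ^ k := by
  have h1 : Ideal.map (s : B →+* B) 𝔏 ≤ 𝔏 := by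
    rw [Ideal.map_le_iff_le_comap]
    intro y hy
    rw [Ideal.mem_comap]
    have : s y = (s y - y) + y := by ring
    show s y ∈ 𝔏
    rw [this]
    exact 𝔏.add_mem (hs y) hy
  have h2 : Ideal.map (s : B →+* B) (𝔏 ^ k) ≤ 𝔏 ^ k := by
    rw [Ideal.map_pow]
    exact Ideal.pow_right_mono h1 k
  exact h2 (Ideal.mem_map_of_mem (s : B →+* B) he)

open Classical in
theorem local_congr {B : Type*} [CommRing B] [IsDedekindDomain B] (𝔏 : Ideal B) [𝔏.IsPrime]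
    (h𝔏 : 𝔏 ≠ ⊥) (s : B ≃+* B) (hs : ∀ x, s x - x ∈ 𝔏) (ϖ c : B) (hϖ : s ϖ = c * ϖ)
    (hϖ1 : ϖ ∈ 𝔏) (hϖ2 : ϖ ∉ 𝔏 ^ 2) (η γ : B) (hγ : γ ≠ 0) (h : η * s γ = γ) :
    η * c ^ (normalizedFactors (span {γ})).count 𝔏 - 1 ∈ 𝔏 := by
  have h𝔏p : 𝔏.IsPrime := inferInstance
  have hprime : Prime 𝔏 := Ideal.prime_of_isPrime h𝔏 h𝔏p
  set r := (normalizedFactors (span {γ})).count 𝔏 with hr
  have hγ' : span {γ} ≠ 0 := by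
    rw [Ne, Ideal.zero_eq_bot, Ideal.span_singleton_eq_bot]; exact hγ
  have hm : emultiplicity 𝔏 (span {γ}) = (r : ℕ∞) := by
    rw [emultiplicity_eq_count_normalizedFactors hprime.irreducible hγ', normalize_eq]
  rw [emultiplicity_eq_coe, Ideal.dvd_span_singleton, Ideal.dvd_span_singleton] at hm
  obtain ⟨hγ1, hγ2⟩ := hm
  have hw1 : ϖ ^ r ∈ 𝔏 ^ r := Ideal.pow_mem_pow hϖ1 r
  have hw2 : ϖ ^ r ∉ 𝔏 ^ (r + 1) := localCongr_pow_notMem 𝔏 h𝔏 ϖ hϖ1 hϖ2 r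
  obtain ⟨x, e, he, hxe⟩ := Ideal.exists_mul_add_mem_pow_succ h𝔏 (ϖ ^ r) γ hw1 hw2 hγ1
  have hx : x ∉ 𝔏 := by
    intro hx
    apply hγ2
    rw [← hxe, pow_succ]
    refine Ideal.add_mem _ (Ideal.mul_mem_mul hw1 hx) ?_
    rw [← pow_succ]; exact he
  have hse : s e ∈ 𝔏 ^ (r + 1) := localCongr_map_mem_pow 𝔏 s hs (r + 1) he
  have hsγ : s γ = c ^ r * ϖ ^ r * s x + s e := by
    rw [← hxe, map_add, map_mul, map_pow, hϖ, mul_pow]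
  have key : ϖ ^ r * (x - η * c ^ r * s x) ∈ 𝔏 ^ (r + 1) := by
    have : ϖ ^ r * (x - η * c ^ r * s x) = η * s e - e := by
      have h3 : η * (c ^ r * ϖ ^ r * s x + s e) = ϖ ^ r * x + e := by
        rw [← hsγ, h, hxe]
      linear_combination -h3
    rw [this]
    exact Ideal.sub_mem _ (Ideal.mul_mem_left _ _ hse) he
  have h4 : x - η * c ^ r * s x ∈ 𝔏 := Ideal.mem_prime_of_mul_mem_pow h𝔏 hw2 key
  have h5 : x * (η * c ^ r - 1) ∈ 𝔏 := by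
    have : x * (η * c ^ r - 1) = -(x - η * c ^ r * s x) - η * c ^ r * (s x - x) := by ring
    rw [this]
    exact Ideal.sub_mem _ (𝔏.neg_mem h4) (Ideal.mul_mem_left _ _ (hs x))
  exact (h𝔏p.mem_or_mem h5).resolve_left hx

end Fermat.Agent.S14.Thaine
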