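import Mathlib

/-!
# S14 / Thaine, task TH-1

`ABKL` setting, `L/K` finite Galois, cyclic with generator `g`; `η` a unit of `B`, `γ ≠ 0` in `B`
with `η * g γ = γ`.  Then the norm `β ∈ A` of `γ` is associated (in `B`) to `γ ^ [L:K]`.

Sketch: put `s = galRestrict A K L B g`.  `Associated (s γ) γ`; the set
`{σ : Gal(L/K) | Associated (galRestrict A K L B σ γ) γ}` is a subgroup (ring automorphisms preserve
`Associated`), contains `g`, hence is everything by `hg`.  By Mathlib's
`prod_galRestrict_eq_norm A K L B γ`, `∏ σ, galRestrict A K L B σ γ = algebraMap A B β` for an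
explicit `β`.  `Associated (∏ σ, ..) (∏ σ, γ) = γ ^ card` (`Associated.prod` or induction),
`Nat.card Gal(L/K) = finrank K L` (`IsGalois.card_aut_eq_finrank`).  `B` is a domain because
`algebraMap B L` is injective (`IsIntegralClosure.algebraMap_injective B A L`), so `β ≠ 0`.
-/

set_option autoImplicit false

namespace Fermat.Agent.S14.Thaine

theorem exists_norm_associated (A K L B : Type*) [CommRing A] [CommRing B] [Algebra A B]
    [Field K] [Field L] [Algebra A K] [IsFractionRing A K] [Algebra K L] [Algebra A L]
    [IsScalarTower A K L] [Algebra B L] [IsScalarTower A B L] [IsIntegralClosure B A L]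
    [FiniteDimensional K L] [IsGalois K L] [IsIntegrallyClosed A]
    {g : L ≃ₐ[K] L} (hg : ∀ x, x ∈ Subgroup.zpowers g) (η γ : B) (hη : IsUnit η) (hγ : γ ≠ 0)
    (h : η * galRestrict A K L B g γ = γ) :
    ∃ β : A, β ≠ 0 ∧ Associated (algebraMap A B β) (γ ^ Module.finrank K L) := by
  classical
  have hinj : Function.Injective (algebraMap B L) := IsIntegralClosure.algebraMap_injective B A L
  have hdom : IsDomain B := hinj.isDomain (algebraMap B L)
  -- the subgroup of automorphisms moving `γ` to an associate
  let H : Subgroup (L ≃ₐ[K] L) :=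
    { carrier := {σ | Associated (galRestrict A K L B σ γ) γ}
      one_mem' := by
        show Associated (galRestrict A K L B 1 γ) γ
        rw [map_one]
        exact Associated.refl _
      mul_mem' := by
        intro σ τ hσ hτ
        show Associated (galRestrict A K L B (σ * τ) γ) γ
        rw [map_mul]
        have h1 : Associated (galRestrict A K L B σ (galRestrict A K L B τ γ))
            (galRestrict A K L B σ γ) := Associated.map (galRestrict A K L B σ) hτ
        exact h1.trans hσ
      inv_mem' := by
        intro σ hσ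
        show Associated (galRestrict A K L B σ⁻¹ γ) γ
        have h1 : Associated (galRestrict A K L B σ⁻¹ (galRestrict A K L B σ γ))
            (galRestrict A K L B σ⁻¹ γ) := Associated.map (galRestrict A K L B σ⁻¹) hσ
        have h2 : galRestrict A K L B σ⁻¹ (galRestrict A K L B σ γ) = γ := by
          rw [← AlgEquiv.mul_apply, ← map_mul, inv_mul_cancel, map_one]
          rfl
        rw [h2] at h1
        exact h1.symm }
  have hgH : g ∈ H := by
    show Associated (galRestrict A K L B g γ) γ
    obtain ⟨u, rfl⟩ := hη
    exact ⟨u, by rw [mul_comm]; exact h⟩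
  have hall : ∀ σ : L ≃ₐ[K] L, Associated (galRestrict A K L B σ γ) γ := by
    intro σ
    have : σ ∈ H := (Subgroup.zpowers_le.mpr hgH) (hg σ)
    exact this
  have hprod : Associated (∏ σ : L ≃ₐ[K] L, galRestrict A K L B σ γ)
      (∏ _σ : L ≃ₐ[K] L, γ) :=
    Associated.prod Finset.univ _ _ fun σ _ => hall σ
  rw [Finset.prod_const, Finset.card_univ, ← Nat.card_eq_fintype_card,
    IsGalois.card_aut_eq_finrank, prod_galRestrict_eq_norm A K L B γ] at hprod
  refine ⟨_, ?_, hprod⟩
  intro h0
  rw [h0, map_zero] at hprod
  exact pow_ne_zero _ hγ (hprod.symm.eq_zero_iff.mpr rfl)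

end Fermat.Agent.S14.Thaine
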