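import Fermat.Agent.S14.Thaine.IdealPow
import Fermat.Agent.S14.Thaine.NormAssoc
import Fermat.Agent.S14.Thaine.LocalCongr
import Fermat.Agent.S14.Thaine.CountMap
import Fermat.Agent.S14.Thaine.CycloField
import Fermat.Agent.S14.Thaine.CycloNorm
import Fermat.Agent.S14.Thaine.CycloRam
import Fermat.Agent.S14.Thaine.CycloUniformizer
import Fermat.Agent.S14.Thaine.CycloInertia
import Fermat.Agent.S14.Thaine.Hilbert90Int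

/-!
# S14 / Thaine, task TH-5 : the Thaine relation (= `thaine_relation` of `S14/Blueprint.lean`)

`M = CyclotomicField ℓ K`, `ξ = zeta`, `g` a generator of `Gal(M/K)`, `g ξ = ξ^a`; `η = 1 - ζ ξ` has norm one, so
Hilbert 90 (TH-10) gives `γ ≠ 0` in `𝓞 M` with `η * g γ = γ`.
`β` from TH-1, `R 𝔩 = count 𝔩 (span {β})`, `s` an inverse of `a` mod `ℓ`.  TH-3 + TH-4c give the counts, TH-0 the ideal identity,
TH-2 + TH-4d + TH-4e the congruence.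
-/

set_option autoImplicit false

namespace Fermat.Agent.S14.Thaine

open NumberField Ideal UniqueFactorizationMonoid

/-- a prime ideal containing the rational prime `ℓ` lies over `(ℓ)`. -/
theorem rel_liesOver_span_of_natCast_mem {R : Type*} [CommRing R] (P : Ideal R) [P.IsPrime] (ℓ : ℕ)
    [Fact ℓ.Prime] (h : (ℓ : R) ∈ P) : P.LiesOver (span {(ℓ : ℤ)}) := by
  have hmax : (span {(ℓ : ℤ)} : Ideal ℤ).IsMaximal := Int.ideal_span_isMaximal_of_prime ℓ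
  refine ⟨hmax.eq_of_le (Ideal.IsPrime.under ℤ P).ne_top ?_⟩
  rw [Ideal.span_le, Set.singleton_subset_iff]
  simpa [Ideal.under_def] using h

theorem rel_natCast_mem_of_liesOver_span {R : Type*} [CommRing R] (P : Ideal R) (ℓ : ℕ)
    [P.LiesOver (span {(ℓ : ℤ)})] : (ℓ : R) ∈ P := by
  have := (Ideal.mem_of_liesOver P (span {(ℓ : ℤ)}) (ℓ : ℤ)).mp (Ideal.mem_span_singleton_self _)
  simpa using this

variable {p : ℕ} [Fact p.Prime] {K : Type*} [Field K] [NumberField K]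
  [IsCyclotomicExtension {p} ℚ K]

theorem thaine_relation {ζ : K} (hζ : IsPrimitiveRoot ζ p) (ℓ : ℕ) (hℓ : ℓ.Prime)
    (hℓp : ℓ % p = 1) :
    ∃ (β : 𝓞 K) (s : ℕ) (R : Ideal (𝓞 K) → ℕ) (𝔠 : Ideal (𝓞 K)), β ≠ 0 ∧
      (∀ 𝔩 ∈ IsDedekindDomain.primesOverFinset (span {(ℓ : ℤ)}) (𝓞 K),
        (1 - hζ.toInteger) - (s : 𝓞 K) ^ R 𝔩 ∈ 𝔩) ∧
      span {β} = (∏ 𝔩 ∈ IsDedekindDomain.primesOverFinset (span {(ℓ : ℤ)}) (𝓞 K), 𝔩 ^ R 𝔩) * 𝔠 ^ p := by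
  classical
  have : Fact ℓ.Prime := ⟨hℓ⟩
  have hp : p.Prime := Fact.out
  have hpℓ : p ≠ ℓ := by
    rintro rfl
    simp at hℓp
  have hpdvd : p ∣ ℓ - 1 := (Nat.modEq_iff_dvd' hℓ.one_le).mp (by
    show 1 % p = ℓ % p
    rw [hℓp, Nat.mod_eq_of_lt hp.one_lt])
  let M := CyclotomicField ℓ K
  have : IsCyclotomicExtension {p * ℓ} ℚ M := isCyclotomicExtension_mul p K ℓ M hpℓ
  let ξ : M := IsCyclotomicExtension.zeta ℓ K M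
  have hξ : IsPrimitiveRoot ξ ℓ := IsCyclotomicExtension.zeta_spec ℓ K M
  obtain ⟨g, a, hg, hga, hac⟩ := exists_generator p (K := K) hpℓ hξ
  have : IsGalois K M := IsCyclotomicExtension.isGalois {ℓ} K M
  let η : 𝓞 M := 1 - algebraMap (𝓞 K) (𝓞 M) hζ.toInteger * hξ.toInteger
  have hηu : IsUnit η := isUnit_one_sub_mul hpℓ hζ hξ
  have hηN : Algebra.norm K (algebraMap (𝓞 M) M η) = 1 := by
    have := norm_one_sub_mul (irreducible_cyclotomic p K ℓ hpℓ) hℓp hζ hξ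
    rw [← this]
    congr 1
  obtain ⟨γ, hγ0, hγ⟩ :=
    exists_mul_galRestrict_of_norm_eq_one (A := 𝓞 K) (B := 𝓞 M) hg hηN
  obtain ⟨β, hβ0, hβ⟩ := exists_norm_associated (𝓞 K) K M (𝓞 M) hg η γ hηu hγ0 hγ
  rw [finrank_eq p K ℓ M hpℓ] at hβ
  have hℓZ : (span {(ℓ : ℤ)} : Ideal ℤ) ≠ ⊥ := by simp [hℓ.ne_zero]
  have hmax : (span {(ℓ : ℤ)} : Ideal ℤ).IsMaximal := Int.ideal_span_isMaximal_of_prime ℓ
  have hmemS : ∀ 𝔩 : Ideal (𝓞 K), 𝔩 ∈ IsDedekindDomain.primesOverFinset (span {(ℓ : ℤ)}) (𝓞 K) ↔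
      𝔩.IsPrime ∧ 𝔩.LiesOver (span {(ℓ : ℤ)}) :=
    fun 𝔩 => IsDedekindDomain.mem_primesOverFinset_iff hℓZ (𝓞 K)
  have hβspan : (span {β} : Ideal (𝓞 K)) ≠ ⊥ := by simpa using hβ0
  have hℓ1 : 0 < ℓ - 1 := by have := hℓ.two_le; omega
  -- an inverse of `a` modulo `ℓ`
  obtain ⟨s, -, hs⟩ := Nat.exists_mul_mod_eq_one_of_coprime hac hℓ.one_lt
  -- the ideal identity
  obtain ⟨𝔠, h𝔠⟩ := exists_eq_prod_mul_pow (span {β}) hβspan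
    (IsDedekindDomain.primesOverFinset (span {(ℓ : ℤ)}) (𝓞 K))
    (fun 𝔯 h𝔯 => by
      obtain ⟨h1, h2⟩ := (hmemS 𝔯).mp h𝔯
      exact ⟨h1, Ideal.ne_bot_of_liesOver_of_ne_bot hℓZ 𝔯⟩) p
    (fun 𝔯 h𝔯p h𝔯0 h𝔯S => by
      have : 𝔯.IsMaximal := h𝔯p.isMaximal h𝔯0
      obtain ⟨𝔓, h𝔓m, h𝔓o⟩ := exists_maximal_ideal_liesOver_of_isIntegral (S := 𝓞 M) 𝔯
      have h𝔓p : 𝔓.IsPrime := h𝔓m.isPrime
      have h𝔓0 : 𝔓 ≠ ⊥ := Ideal.ne_bot_of_liesOver_of_ne_bot h𝔯0 𝔓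
      have hnot : (ℓ : 𝓞 M) ∉ 𝔓 := by
        intro hmem
        apply h𝔯S
        rw [hmemS]
        refine ⟨h𝔯p, rel_liesOver_span_of_natCast_mem 𝔯 ℓ ?_⟩
        rw [Ideal.mem_of_liesOver 𝔓 𝔯]
        simpa using hmem
      have h1 := ramificationIdx_mul_count β hβ0 γ hγ0 (ℓ - 1) hβ 𝔯 h𝔯0 𝔓
      rw [ramificationIdx_eq_one p K hpℓ 𝔓 h𝔓0 hnot, one_mul] at h1
      rw [h1]
      exact Dvd.dvd.mul_right hpdvd _)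
  refine ⟨β, s, fun 𝔩 => (normalizedFactors (span {β})).count 𝔩, 𝔠, hβ0, ?_, h𝔠⟩
  intro 𝔩 h𝔩S
  obtain ⟨h𝔩p, h𝔩o⟩ := (hmemS 𝔩).mp h𝔩S
  have h𝔩0 : 𝔩 ≠ ⊥ := Ideal.ne_bot_of_liesOver_of_ne_bot hℓZ 𝔩
  have : 𝔩.IsMaximal := h𝔩p.isMaximal h𝔩0
  obtain ⟨𝔏, h𝔏m, h𝔏o⟩ := exists_maximal_ideal_liesOver_of_isIntegral (S := 𝓞 M) 𝔩
  have h𝔏p : 𝔏.IsPrime := h𝔏m.isPrime
  have h𝔏0 : 𝔏 ≠ ⊥ := Ideal.ne_bot_of_liesOver_of_ne_bot h𝔩0 𝔏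
  have hmem : (ℓ : 𝓞 M) ∈ 𝔏 := by
    have h1 : (ℓ : 𝓞 K) ∈ 𝔩 := rel_natCast_mem_of_liesOver_span 𝔩 ℓ
    rw [Ideal.mem_of_liesOver 𝔏 𝔩] at h1
    simpa using h1
  have hcount : (normalizedFactors (span {β})).count 𝔩 = (normalizedFactors (span {γ})).count 𝔏 := by
    have h1 := ramificationIdx_mul_count β hβ0 γ hγ0 (ℓ - 1) hβ 𝔩 h𝔩0 𝔏
    rw [ramificationIdx_eq_sub_one p K hpℓ 𝔏 hmem] at h1
    exact Nat.eq_of_mul_eq_mul_left hℓ1 h1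
  simp only [hcount]
  set r := (normalizedFactors (span {γ})).count 𝔏 with hr
  let σ : 𝓞 M ≃+* 𝓞 M := (galRestrict (𝓞 K) K M (𝓞 M) g).toRingEquiv
  let ϖ : 𝓞 M := 1 - hξ.toInteger
  let c : 𝓞 M := ∑ j ∈ Finset.range a, hξ.toInteger ^ j
  have hσξ : σ hξ.toInteger = hξ.toInteger ^ a := by
    apply FaithfulSMul.algebraMap_injective (𝓞 M) M
    show algebraMap (𝓞 M) M (galRestrict (𝓞 K) K M (𝓞 M) g hξ.toInteger) = _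
    rw [algebraMap_galRestrict_apply, map_pow]
    exact hga
  have hσϖ : σ ϖ = c * ϖ := by
    simp only [ϖ, c, map_sub, map_one, hσξ]
    rw [geom_sum_mul_neg]
  have key := local_congr 𝔏 h𝔏0 σ (fun x => galRestrict_sub_mem p hpℓ 𝔏 hmem g x) ϖ c hσϖ
    (one_sub_mem 𝔏 hmem hξ) (one_sub_not_mem_sq p hpℓ 𝔏 hmem hξ) η γ hγ0 hγ
  rw [Ideal.mem_of_liesOver 𝔏 𝔩]
  rw [← Ideal.Quotient.eq_zero_iff_mem] at key ⊢
  have hξ1 : Ideal.Quotient.mk 𝔏 hξ.toInteger = 1 := by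
    have := one_sub_mem 𝔏 hmem hξ
    rw [← Ideal.Quotient.eq_zero_iff_mem, map_sub, map_one, sub_eq_zero] at this
    exact this.symm
  have hc : Ideal.Quotient.mk 𝔏 c = (a : 𝓞 M ⧸ 𝔏) := by
    simp [c, hξ1]
  have hℓ0 : ((ℓ : ℕ) : 𝓞 M ⧸ 𝔏) = 0 := by
    have := Ideal.Quotient.eq_zero_iff_mem.mpr hmem
    simpa using this
  have has : (a : 𝓞 M ⧸ 𝔏) * (s : 𝓞 M ⧸ 𝔏) = 1 := by
    have h1 : a * s = ℓ * (a * s / ℓ) + 1 := by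
      conv_lhs => rw [← Nat.div_add_mod (a * s) ℓ, hs]
    have h2 : ((a * s : ℕ) : 𝓞 M ⧸ 𝔏) = ((ℓ * (a * s / ℓ) + 1 : ℕ) : 𝓞 M ⧸ 𝔏) := by rw [← h1]
    push_cast at h2
    rw [h2, hℓ0, zero_mul, zero_add]
  simp only [η, map_sub, map_mul, map_one, map_pow, hξ1, hc, mul_one, map_natCast] at key ⊢
  set z := Ideal.Quotient.mk 𝔏 (algebraMap (𝓞 K) (𝓞 M) hζ.toInteger) with hz
  have h3 : (1 - z) * (a : 𝓞 M ⧸ 𝔏) ^ r = 1 := sub_eq_zero.mp key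
  have h4 : (1 - z) = (s : 𝓞 M ⧸ 𝔏) ^ r := by
    calc (1 - z) = (1 - z) * ((a : 𝓞 M ⧸ 𝔏) * s) ^ r := by rw [has, one_pow, mul_one]
      _ = ((1 - z) * (a : 𝓞 M ⧸ 𝔏) ^ r) * (s : 𝓞 M ⧸ 𝔏) ^ r := by rw [mul_pow]; ring
      _ = (s : 𝓞 M ⧸ 𝔏) ^ r := by rw [h3, one_mul]
  rw [h4, sub_self]

end Fermat.Agent.S14.Thaine
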